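import Fermat.Agent.TwoAdic.Assembly
import Fermat.Agent.Endgame.Final

/-!
# The two-adic route as the residual modularity input of the endgame
-/

set_option autoImplicit false

namespace Fermat.Agent.TwoAdic

/-- `Endgame.SquarefreeModularAtThree` from the pieces of the two-adic route. -/
theorem squarefreeModularAtThree_of_props (hsw : SwitchExists) (hirr : ResidualIrreducible)
    (hpl : PlacesExist) (haux : AuxPrimesExist) (hbound : DihedralBound)
    (hcount : NewSystemCount) (hsys : SystemPoints) (hcurve : CurvePoint)
    (hlim : LimitModular) : Endgame.SquarefreeModularAtThree :=
  residuallyModular_three hsw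
    (isModularSquarefree hirr hpl haux hbound hcount hsys hcurve hlim)

end Fermat.Agent.TwoAdic
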