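/-
The forms of degree 4, 4 and 6 parametrising the elliptic curves with the same 3-torsion as a given
one (`a = c₄`, `b = c₆`), and their syzygy.
-/
import Mathlib.Tactic.Ring
import Mathlib.Tactic.LinearCombination
import Mathlib.Algebra.Ring.Hom.Defs

set_option autoImplicit false

namespace Fermat.Agent.TwoAdic

variable {R S : Type*} [CommRing R] [CommRing S]

/-- The binary quartic of the Hesse family: the discriminant of the member `(s : t)` is
`Δ * hesseD a b s t ^ 3`. -/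
def hesseD (a b s t : R) : R :=
  s ^ 4 - 6 * a * s ^ 2 * t ^ 2 - 8 * b * s * t ^ 3 - 3 * a ^ 2 * t ^ 4

/-- `c₄` of the member `(s : t)` of the Hesse family. -/
def hesseC4 (a b s t : R) : R :=
  a * s ^ 4 + 4 * b * s ^ 3 * t + 6 * a ^ 2 * s ^ 2 * t ^ 2 + 4 * a * b * s * t ^ 3
    + (-3 * a ^ 3 + 4 * b ^ 2) * t ^ 4

/-- `c₆` of the member `(s : t)` of the Hesse family. -/
def hesseC6 (a b s t : R) : R :=
  b * s ^ 6 + 6 * a ^ 2 * s ^ 5 * t + 15 * a * b * s ^ 4 * t ^ 2 + 20 * b ^ 2 * s ^ 3 * t ^ 3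
    + 15 * a ^ 2 * b * s ^ 2 * t ^ 4 + (18 * a ^ 4 - 12 * a * b ^ 2) * s * t ^ 5
    + (9 * a ^ 3 * b - 8 * b ^ 3) * t ^ 6

theorem hesseC4_cube_sub_hesseC6_sq (a b s t : R) :
    hesseC4 a b s t ^ 3 - hesseC6 a b s t ^ 2 = (a ^ 3 - b ^ 2) * hesseD a b s t ^ 3 := by
  simp only [hesseC4, hesseC6, hesseD]; ring

theorem map_hesseD (f : R →+* S) (a b s t : R) :
    f (hesseD a b s t) = hesseD (f a) (f b) (f s) (f t) := by
  simp [hesseD, map_sub, map_mul, map_pow, map_ofNat]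

theorem map_hesseC4 (f : R →+* S) (a b s t : R) :
    f (hesseC4 a b s t) = hesseC4 (f a) (f b) (f s) (f t) := by
  simp [hesseC4, map_add, map_mul, map_pow, map_ofNat, map_neg]

theorem map_hesseC6 (f : R →+* S) (a b s t : R) :
    f (hesseC6 a b s t) = hesseC6 (f a) (f b) (f s) (f t) := by
  simp [hesseC6, map_add, map_sub, map_mul, map_pow, map_ofNat]

@[simp] theorem hesseD_zero (a b s : R) : hesseD a b s 0 = s ^ 4 := by simp [hesseD]

@[simp] theorem hesseC4_zero (a b s : R) : hesseC4 a b s 0 = a * s ^ 4 := by simp [hesseC4]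

@[simp] theorem hesseC6_zero (a b s : R) : hesseC6 a b s 0 = b * s ^ 6 := by simp [hesseC6]

end Fermat.Agent.TwoAdic
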