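/-
The 3-torsion of `y² = x³ - 27 a x - 54 b` is parametrised by `m` with `qf a b (m²) = 0`; along the
Hesse family this parameter transforms linearly, compatibly with the addition law.
-/
import Fermat.Agent.TwoAdic.HesseForms
import Fermat.Agent.Switch.Quartic
import Mathlib.Algebra.CharZero.Defs
import Mathlib.Tactic.FieldSimp

set_option autoImplicit false
set_option linter.unusedSectionVars false

namespace Fermat.Agent.TwoAdic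

open Fermat.Agent.Switch (qf)

variable {k : Type*} [Field k]

/-- The image in the member `(s : t)` of the parameter `m` of a 3-torsion point. -/
def hesseTau (a s t m : k) : k := s * m + t * ((m ^ 4 - 3 * a) / (2 * m))

@[simp] theorem hesseTau_zero (a s t : k) : hesseTau a s t 0 = 0 := by simp [hesseTau]

theorem hesseTau_neg (a s t m : k) : hesseTau a s t (-m) = -hesseTau a s t m := by
  simp only [hesseTau, mul_neg, div_neg]; ring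

/-- The orientation of two independent parameters. -/
def hesseOr (a u v : k) : k := (a - (u * v) ^ 2) / (u * v * (u ^ 2 - v ^ 2))

variable [CharZero k] {a b u v : k}

theorem hesse_b_eq (hu : u ≠ 0) (h : qf a b (u ^ 2) = 0) :
    b = ((u ^ 2) ^ 4 - 6 * a * (u ^ 2) ^ 2 - 3 * a ^ 2) / (8 * u ^ 2) := by
  rw [eq_div_iff (mul_ne_zero (by norm_num) (pow_ne_zero _ hu))]
  simp only [qf] at h
  linear_combination -h

set_option maxHeartbeats 4000000 in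
theorem qf_hesseTau (s t : k) (hu : u ≠ 0) (h : qf a b (u ^ 2) = 0) :
    qf (hesseC4 a b s t) (hesseC6 a b s t) (hesseTau a s t u ^ 2) = 0 := by
  rw [hesse_b_eq hu h]
  simp only [qf, hesseC4, hesseC6, hesseTau]
  field_simp
  ring

theorem hesseTau_ne_zero (s t : k) (hu : u ≠ 0) (h : qf a b (u ^ 2) = 0)
    (hC : hesseC4 a b s t ≠ 0) : hesseTau a s t u ≠ 0 := fun e => hC (by
  have := qf_hesseTau s t hu h
  simp only [qf, e] at this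
  simpa using this)

theorem hesseOr_sq (hu : u ≠ 0) (hv : v ≠ 0) (huv : u ^ 2 ≠ v ^ 2)
    (h1 : qf a b (u ^ 2) = 0) (h2 : qf a b (v ^ 2) = 0) : 3 * hesseOr a u v ^ 2 + 1 = 0 := by
  have hd : u ^ 2 - v ^ 2 ≠ 0 := sub_ne_zero.2 huv
  simp only [qf] at h1 h2
  have key : 3 * (a - (u * v) ^ 2) ^ 2 + (u * v) ^ 2 * (u ^ 2 - v ^ 2) ^ 2 = 0 := by
    apply mul_left_cancel₀ hd
    rw [mul_zero]
    linear_combination v ^ 2 * h1 - u ^ 2 * h2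
  rw [hesseOr, div_pow, mul_div_assoc', div_add_one (by simp [hu, hv, hd]), div_eq_zero_iff]
  left
  linear_combination key

theorem hesseOr_spec (hu : u ≠ 0) (hv : v ≠ 0) (huv : u ^ 2 ≠ v ^ 2) :
    a = (u * v) ^ 2 + hesseOr a u v * (u * v) * (u ^ 2 - v ^ 2) := by
  have hd : u ^ 2 - v ^ 2 ≠ 0 := sub_ne_zero.2 huv
  rw [hesseOr, mul_assoc, div_mul_cancel₀ _ (mul_ne_zero (mul_ne_zero hu hv) hd)]
  ring

section law

variable {s t r : k}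

omit [CharZero k] in
theorem hesse_num (ha : a = (u * v) ^ 2 + r * (u * v) * (u ^ 2 - v ^ 2)) :
    u ^ 4 - 3 * a = u * (u ^ 3 - 3 * u * v ^ 2 - 3 * r * v * (u ^ 2 - v ^ 2)) ∧
    v ^ 4 - 3 * a = v * (v ^ 3 - 3 * u ^ 2 * v - 3 * r * u * (u ^ 2 - v ^ 2)) := by
  constructor <;> · rw [ha]; ring

set_option maxHeartbeats 4000000 in
/-- The member's orientation is that of the original curve. -/
theorem hesseC4_eq_of_or (hu : u ≠ 0) (hv : v ≠ 0) (h : qf a b (u ^ 2) = 0)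
    (hr : 3 * r ^ 2 + 1 = 0) (ha : a = (u * v) ^ 2 + r * (u * v) * (u ^ 2 - v ^ 2)) :
    hesseC4 a b s t = (hesseTau a s t u * hesseTau a s t v) ^ 2 +
      r * (hesseTau a s t u * hesseTau a s t v) *
        (hesseTau a s t u ^ 2 - hesseTau a s t v ^ 2) := by
  obtain ⟨nu, nv⟩ := hesse_num ha
  have hb : b = (u ^ 6 - 6 * a * u ^ 2 - (3 * u ^ 2 * v ^ 4 + 6 * r * u * v ^ 3 * (u ^ 2 - v ^ 2)
      - v ^ 2 * (u ^ 2 - v ^ 2) ^ 2)) / 8 := by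
    rw [hesse_b_eq hu h]
    field_simp
    subst ha
    linear_combination (-(u ^ 2) * v ^ 2 * (u ^ 2 - v ^ 2) ^ 2) * hr
  simp only [hesseTau, nu, nv, mul_comm (2 : k) u, mul_comm (2 : k) v, mul_div_mul_left _ _ hu,
    mul_div_mul_left _ _ hv]
  subst hb
  subst ha
  simp only [hesseC4]
  linear_combination (((8) * v ^ 6 * s ^ 3 * t + (-18) * v ^ 10 * r ^ 2 * s * t ^ 3 + (1) * v ^ 12 * t ^ 4 + (-9) * v ^ 12 * r ^ 2 * t ^ 4 + (36) * u * v ^ 9 * r * s * t ^ 3 + (27) * u * v ^ 11 * r * t ^ 4 + (-27) * u * v ^ 11 * r ^ 3 * t ^ 4 + (-8) * u ^ 2 * v ^ 4 * s ^ 3 * t + (8) * u ^ 2 * v ^ 6 * s ^ 2 * t ^ 2 + (-16) * u ^ 2 * v ^ 8 * s * t ^ 3 + (54) * u ^ 2 * v ^ 8 * r ^ 2 * s * t ^ 3 + (-19) * u ^ 2 * v ^ 10 * t ^ 4 + (135) * u ^ 2 * v ^ 10 * r ^ 2 * t ^ 4 + (-72) * u ^ 3 * v ^ 7 * r * s * t ^ 3 + (-191) * u ^ 3 * v ^ 9 * r * t ^ 4 + (135) * u ^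 3 * v ^ 9 * r ^ 3 * t ^ 4 + (-8) * u ^ 4 * v ^ 2 * s ^ 3 * t + (-16) * u ^ 4 * v ^ 4 * s ^ 2 * t ^ 2 + (16) * u ^ 4 * v ^ 6 * s * t ^ 3 + (-36) * u ^ 4 * v ^ 6 * r ^ 2 * s * t ^ 3 + (75) * u ^ 4 * v ^ 8 * t ^ 4 + (-459) * u ^ 4 * v ^ 8 * r ^ 2 * t ^ 4 + (438) * u ^ 5 * v ^ 7 * r * t ^ 4 + (-270) * u ^ 5 * v ^ 7 * r ^ 3 * t ^ 4 + (8) * u ^ 6 * s ^ 3 * t + (8) * u ^ 6 * v ^ 2 * s ^ 2 * t ^ 2 + (16) * u ^ 6 * v ^ 4 * s * t ^ 3 + (-36) * u ^ 6 * v ^ 4 * r ^ 2 * s * t ^ 3 + (-114) * u ^ 6 * v ^ 6 * t ^ 4 + (666) * u ^ 6 * v ^ 6 * r ^ 2 * t ^ 4 + (72) * u ^ 7 * v ^ 3 * r * s * t ^ 3 + (-438) * u ^ 7 * v ^ 5 * r * t ^ 4 + (270) * u ^ 7 * v ^ 5 * r ^ 3 * t ^ 4 + (-16) * u ^ 8 * v ^ 2 * s * t ^ 3 + (54) * u ^ 8 * v ^ 2 * r ^ 2 * s * t ^ 3 + (75) * u ^ 8 * v ^ 4 * t ^ 4 + (-459) * u ^ 8 * v ^ 4 * r ^ 2 * t ^ 4 + (-36) * u ^ 9 * v * r * s * t ^ 3 +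 (191) * u ^ 9 * v ^ 3 * r * t ^ 4 + (-135) * u ^ 9 * v ^ 3 * r ^ 3 * t ^ 4 + (-18) * u ^ 10 * r ^ 2 * s * t ^ 3 + (-19) * u ^ 10 * v ^ 2 * t ^ 4 + (135) * u ^ 10 * v ^ 2 * r ^ 2 * t ^ 4 + (-27) * u ^ 11 * v * r * t ^ 4 + (27) * u ^ 11 * v * r ^ 3 * t ^ 4 + (1) * u ^ 12 * t ^ 4 + (-9) * u ^ 12 * r ^ 2 * t ^ 4) / 16) * hr

theorem hesseTau_combination (hu : u ≠ 0) (hv : v ≠ 0)
    (hw : (1 + 3 * r) * u + (1 - 3 * r) * v ≠ 0)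
    (hr : 3 * r ^ 2 + 1 = 0) (ha : a = (u * v) ^ 2 + r * (u * v) * (u ^ 2 - v ^ 2)) :
    hesseTau a s t (-(((1 + 3 * r) * u + (1 - 3 * r) * v) / 2)) =
      -(((1 + 3 * r) * hesseTau a s t u + (1 - 3 * r) * hesseTau a s t v) / 2) := by
  obtain ⟨nu, nv⟩ := hesse_num ha
  set w := -(((1 + 3 * r) * u + (1 - 3 * r) * v) / 2) with hwdef
  have hw0 : w ≠ 0 := neg_ne_zero.2 (div_ne_zero hw two_ne_zero)
  have nw : (w ^ 4 - 3 * a) / (2 * w) =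
      -(((1 + 3 * r) * ((u ^ 3 - 3 * u * v ^ 2 - 3 * r * v * (u ^ 2 - v ^ 2)) / 2) +
        (1 - 3 * r) * ((v ^ 3 - 3 * u ^ 2 * v - 3 * r * u * (u ^ 2 - v ^ 2)) / 2)) / 2) := by
    rw [div_eq_iff (mul_ne_zero two_ne_zero hw0), hwdef]
    subst ha
    linear_combination (((-3) * v ^ 4 + (27) * v ^ 4 * r ^ 2 + (12) * u * v ^ 3 + (-108) * u * v ^ 3 * r ^ 2 + (-18) * u ^ 2 * v ^ 2 + (162) * u ^ 2 * v ^ 2 * r ^ 2 + (12) * u ^ 3 * v + (-108) * u ^ 3 * v * r ^ 2 + (-3) * u ^ 4 + (27) * u ^ 4 * r ^ 2) / 16) * hr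
  simp only [hesseTau, nw, nu, nv, mul_comm (2 : k) u, mul_comm (2 : k) v,
    mul_div_mul_left _ _ hu, mul_div_mul_left _ _ hv]
  rw [hwdef]
  ring

end law

end Fermat.Agent.TwoAdic
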