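/-
The points of order three on `y² = x³ - 27 a x - 54 b` in terms of their parameter
`m = (x² - 9a)/(2y)`, and the addition law in this parameter.
-/
import Fermat.Agent.TwoAdic.HesseRoots
import Mathlib.AlgebraicGeometry.EllipticCurve.Affine.Point
import Mathlib.Tactic.Module

set_option autoImplicit false
set_option linter.unusedSectionVars false

namespace Fermat.Agent.TwoAdic

open WeierstrassCurve
open Fermat.Agent.Switch (qf)

variable {k : Type*} [Field k] {E : WeierstrassCurve.Affine k} {a b : k}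

/-- `E` is `y² = x³ - 27 a x - 54 b`, nonsingular, with `a ≠ 0`. -/
structure IsHesseShort (E : WeierstrassCurve.Affine k) (a b : k) : Prop where
  a₁ : E.a₁ = 0
  a₂ : E.a₂ = 0
  a₃ : E.a₃ = 0
  a₄ : E.a₄ = -27 * a
  a₆ : E.a₆ = -54 * b
  ha : a ≠ 0
  hab : a ^ 3 ≠ b ^ 2

/-- The parameter of a point of order three. -/
def hesseParam (a : k) : E.Point → k
  | .zero => 0
  | @Affine.Point.some _ _ _ x y _ => (x ^ 2 - 9 * a) / (2 * y)

@[simp] theorem hesseParam_zero : hesseParam a (0 : E.Point) = 0 := rfl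

variable [CharZero k]

namespace IsHesseShort

theorem Δ_ne_zero (h : IsHesseShort E a b) : E.Δ ≠ 0 := by
  have e : E.Δ = 1259712 * (a ^ 3 - b ^ 2) := by
    simp only [WeierstrassCurve.Δ, WeierstrassCurve.b₂, WeierstrassCurve.b₄, WeierstrassCurve.b₆,
      WeierstrassCurve.b₈, h.a₁, h.a₂, h.a₃, h.a₄, h.a₆]
    ring
  rw [e]
  exact mul_ne_zero (by norm_num) (sub_ne_zero.2 h.hab)

theorem negY_eq (h : IsHesseShort E a b) (x y : k) : E.negY x y = -y := by
  simp [Affine.negY, h.a₁, h.a₃]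

theorem equation_iff (h : IsHesseShort E a b) (x y : k) :
    E.Equation x y ↔ y ^ 2 = x ^ 3 - 27 * a * x - 54 * b := by
  rw [Affine.equation_iff, h.a₁, h.a₂, h.a₃, h.a₄, h.a₆]
  constructor <;> intro e <;> linear_combination e

theorem nonsingular (h : IsHesseShort E a b) {x y : k}
    (e : y ^ 2 = x ^ 3 - 27 * a * x - 54 * b) : E.Nonsingular x y := by
  rw [← E.equation_iff_nonsingular_of_Δ_ne_zero h.Δ_ne_zero, h.equation_iff]
  exact e

theorem pow_four_ne (h : IsHesseShort E a b) {m : k} (hm : m ≠ 0) (hq : qf a b (m ^ 2) = 0) :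
    m ^ 4 ≠ a := by
  intro e
  apply h.hab
  subst e
  simp only [qf] at hq
  have hb : b = -(m ^ 6) :=
    mul_left_cancel₀ (mul_ne_zero (by norm_num : (-8 : k) ≠ 0) (pow_ne_zero 2 hm))
      (by linear_combination hq)
  subst hb
  ring

variable [DecidableEq k]

/-- The coordinates of a point of order three in terms of its parameter. -/
theorem of_three_zsmul (h : IsHesseShort E a b) {x y : k} {hxy : E.Nonsingular x y}
    (h3 : (3 : ℤ) • Affine.Point.some x y hxy = 0) :
    let m := (x ^ 2 - 9 * a) / (2 * y)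
    m ≠ 0 ∧ qf a b (m ^ 2) = 0 ∧ x = 3 * m ^ 2 ∧ y = 9 * (m ^ 4 - a) / (2 * m) := by
  intro m
  set P : E.Point := Affine.Point.some x y hxy with hP
  have hPP : P + P = -P := by
    linear_combination (norm := module) h3
  have hy : y ≠ E.negY x y := fun e => by
    rw [hP, Affine.Point.add_self_of_Y_eq e] at hPP
    exact Affine.Point.some_ne_zero hxy (neg_eq_zero.1 hPP.symm)
  have hy0 : y ≠ 0 := fun e => hy (by rw [h.negY_eq, e, neg_zero])
  rw [hP, Affine.Point.add_self_of_Y_ne hy, Affine.Point.neg_some,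
    Affine.Point.some.injEq] at hPP
  have hsl : E.slope x x y y = 3 * m := by
    rw [Affine.slope_of_Y_ne rfl hy, h.negY_eq, h.a₁, h.a₂, h.a₄]
    simp only [m]
    field_simp
    ring
  have hx : x = 3 * m ^ 2 := by
    have e := hPP.1
    simp only [Affine.addX, hsl, h.a₁, h.a₂] at e
    linear_combination (-1 / 3 : k) * e
  have hm : m ≠ 0 := fun e => h.ha (by
    have hx0 : x = 0 := by simp [hx, e]
    have := (div_eq_zero_iff.1 e).resolve_right (mul_ne_zero two_ne_zero hy0)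
    rw [hx0] at this
    simpa using this)
  have hyv : y = 9 * (m ^ 4 - a) / (2 * m) := by
    rw [eq_div_iff (mul_ne_zero two_ne_zero hm)]
    have : m * (2 * y) = x ^ 2 - 9 * a := div_mul_cancel₀ _ (mul_ne_zero two_ne_zero hy0)
    rw [hx] at this
    linear_combination this
  refine ⟨hm, ?_, hx, hyv⟩
  have e := (h.equation_iff x y).1 hxy.left
  rw [hx, hyv] at e
  field_simp at e
  simp only [qf]
  linear_combination (-1 / 27 : k) * e

/-- The parameter is a root of the quartic. -/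
theorem qf_param (h : IsHesseShort E a b) {P : E.Point} (hP : (3 : ℤ) • P = 0) (h0 : P ≠ 0) :
    hesseParam a P ≠ 0 ∧ qf a b (hesseParam a P ^ 2) = 0 := by
  rcases P with _ | ⟨x, y, hxy⟩
  · exact absurd rfl h0
  · obtain ⟨hm, hq, -, -⟩ := h.of_three_zsmul hP
    exact ⟨hm, hq⟩

theorem param_injective (h : IsHesseShort E a b) {P Q : E.Point} (hP : (3 : ℤ) • P = 0)
    (hQ : (3 : ℤ) • Q = 0) (e : hesseParam a P = hesseParam a Q) : P = Q := by
  rcases P with _ | ⟨x, y, hxy⟩ <;> rcases Q with _ | ⟨x', y', hxy'⟩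
  · rfl
  · exact absurd e.symm (h.qf_param hQ (Affine.Point.some_ne_zero _)).1
  · exact absurd e (h.qf_param hP (Affine.Point.some_ne_zero _)).1
  · obtain ⟨-, -, hx, hy⟩ := h.of_three_zsmul hP
    obtain ⟨-, -, hx', hy'⟩ := h.of_three_zsmul hQ
    simp only [hesseParam] at e
    rw [Affine.Point.some.injEq]
    exact ⟨hx.trans ((congrArg (fun m : k => 3 * m ^ 2) e).trans hx'.symm),
      hy.trans ((congrArg (fun m : k => 9 * (m ^ 4 - a) / (2 * m)) e).trans hy'.symm)⟩

theorem param_neg (h : IsHesseShort E a b) (P : E.Point) :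
    hesseParam a (-P) = -hesseParam a P := by
  rcases P with _ | ⟨x, y, hxy⟩
  · exact neg_zero.symm
  · simp only [Affine.Point.neg_some, hesseParam, h.negY_eq]
    rw [mul_neg, div_neg]

theorem exists_of_param (h : IsHesseShort E a b) {m : k} (hm : m = 0 ∨ qf a b (m ^ 2) = 0) :
    ∃ P : E.Point, (3 : ℤ) • P = 0 ∧ hesseParam a P = m := by
  by_cases hm0 : m = 0
  · exact ⟨0, zsmul_zero _, hm0.symm⟩
  have hq := hm.resolve_left hm0
  set y : k := 9 * (m ^ 4 - a) / (2 * m) with hy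
  have hy0 : y ≠ 0 := div_ne_zero (mul_ne_zero (by norm_num)
    (sub_ne_zero.2 (h.pow_four_ne hm0 hq))) (mul_ne_zero two_ne_zero hm0)
  have he : y ^ 2 = (3 * m ^ 2) ^ 3 - 27 * a * (3 * m ^ 2) - 54 * b := by
    rw [hy]
    simp only [qf] at hq
    field_simp
    linear_combination (-27 : k) * hq
  set P : E.Point := Affine.Point.some (3 * m ^ 2) y (h.nonsingular he) with hP
  have hne : y ≠ E.negY (3 * m ^ 2) y := fun e => hy0 (by
    rw [h.negY_eq] at e
    exact (mul_eq_zero.1 (show (2 : k) * y = 0 by linear_combination e)).resolve_left two_ne_zero)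
  have hsl : E.slope (3 * m ^ 2) (3 * m ^ 2) y y = 3 * m := by
    rw [Affine.slope_of_Y_ne rfl hne, h.negY_eq, h.a₁, h.a₂, h.a₄,
      div_eq_iff (by simpa [← two_mul] using hy0), hy]
    field_simp
    ring
  have hPP : P + P = -P := by
    rw [hP, Affine.Point.add_self_of_Y_ne hne, Affine.Point.neg_some, Affine.Point.some.injEq]
    refine ⟨?_, ?_⟩
    · simp only [Affine.addX, hsl, h.a₁, h.a₂]; ring
    · simp only [Affine.addY, Affine.negAddY, Affine.addX, Affine.negY, hsl, h.a₁, h.a₂, h.a₃]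
      ring
  refine ⟨P, by linear_combination (norm := module) hPP, ?_⟩
  simp only [hP, hesseParam]
  rw [div_eq_iff (mul_ne_zero two_ne_zero hy0), hy]
  field_simp
  ring

theorem three_zsmul_add {P Q : E.Point} (hP : (3 : ℤ) • P = 0) (hQ : (3 : ℤ) • Q = 0) :
    (3 : ℤ) • (P + Q) = 0 := by rw [zsmul_add, hP, hQ, add_zero]

/-- The addition law in the parameter. -/
theorem param_add (h : IsHesseShort E a b) {P Q : E.Point} (hP : (3 : ℤ) • P = 0)
    (hQ : (3 : ℤ) • Q = 0) (hu : hesseParam a P ≠ 0) (hv : hesseParam a Q ≠ 0)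
    (huv : hesseParam a P ^ 2 ≠ hesseParam a Q ^ 2) :
    let r := hesseOr a (hesseParam a P) (hesseParam a Q)
    hesseParam a (P + Q) =
      -(((1 + 3 * r) * hesseParam a P + (1 - 3 * r) * hesseParam a Q) / 2) := by
  rcases P with _ | ⟨x, y, hxy⟩
  · exact absurd rfl hu
  rcases Q with _ | ⟨x', y', hxy'⟩
  · exact absurd rfl hv
  obtain ⟨-, hq, hx, hy⟩ := h.of_three_zsmul hP
  obtain ⟨-, hq', hx', hy'⟩ := h.of_three_zsmul hQ
  simp only [hesseParam] at hu hv huv
  set u := (x ^ 2 - 9 * a) / (2 * y)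
  set v := (x' ^ 2 - 9 * a) / (2 * y')
  intro r0
  have hr0 : r0 = hesseOr a u v := rfl
  set r := hesseOr a u v with hrdef
  have hr := hesseOr_sq hu hv huv hq hq'
  have ha := hesseOr_spec (a := a) hu hv huv
  rw [← hrdef] at hr ha
  have hy1 : y = 9 * (u ^ 3 - u * v ^ 2 - r * v * (u ^ 2 - v ^ 2)) / 2 := by
    rw [hy, div_eq_div_iff (mul_ne_zero two_ne_zero hu) two_ne_zero, ha]; ring
  have hy2 : y' = 9 * (v ^ 3 - u ^ 2 * v - r * u * (u ^ 2 - v ^ 2)) / 2 := by
    rw [hy', div_eq_div_iff (mul_ne_zero two_ne_zero hv) two_ne_zero, ha]; ring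
  have hxne : x ≠ x' := fun e => huv (by
    rw [hx, hx'] at e
    exact mul_left_cancel₀ three_ne_zero e)
  have hsl : E.slope x x' y y' = 3 / 2 * ((1 + r) * u + (1 - r) * v) := by
    rw [Affine.slope_of_X_ne hxne, div_eq_iff (sub_ne_zero.2 hxne), hy1, hy2, hx, hx']
    ring
  have hsum : (Affine.Point.some x y hxy + Affine.Point.some x' y' hxy' : E.Point) =
      Affine.Point.some _ _ (Affine.nonsingular_add hxy hxy' fun e => hxne e.1) :=
    Affine.Point.add_of_X_ne hxne
  have h3 := three_zsmul_add hP hQ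
  rw [hsum] at h3
  obtain ⟨hm, hqm, hxm, hym⟩ := h.of_three_zsmul h3
  rw [hsum, hr0]
  simp only [hesseParam]
  set X := E.addX x x' (E.slope x x' y y') with hX
  set Y := E.addY x x' y (E.slope x x' y y') with hY
  set m := (X ^ 2 - 9 * a) / (2 * Y)
  set w := -(((1 + 3 * r) * u + (1 - 3 * r) * v) / 2) with hw
  have ex : X = 3 * w ^ 2 := by
    rw [hX, hsl, hw]
    simp only [Affine.addX, h.a₁, h.a₂, hx, hx']
    linear_combination (((-3) * v ^ 2 + (6) * u * v + (-3) * u ^ 2) / 2) * hr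
  have ey : 2 * w * Y = 9 * (w ^ 4 - a) := by
    rw [hY, hsl, hw, ha]
    simp only [Affine.addY, Affine.negAddY, Affine.addX, Affine.negY, h.a₁, h.a₂, h.a₃, hx, hx',
      hy1]
    linear_combination (((-27) * v ^ 4 + (144) * v ^ 4 * r + (-189) * v ^ 4 * r ^ 2 + (-36) * u * v ^ 3 + (-288) * u * v ^ 3 * r + (756) * u * v ^ 3 * r ^ 2 + (126) * u ^ 2 * v ^ 2 + (-1134) * u ^ 2 * v ^ 2 * r ^ 2 + (-36) * u ^ 3 * v + (288) * u ^ 3 * v * r + (756) * u ^ 3 * v * r ^ 2 + (-27) * u ^ 4 + (-144) * u ^ 4 * r + (-189) * u ^ 4 * r ^ 2) / 16) * hr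
  have hsq : m ^ 2 = w ^ 2 := mul_left_cancel₀ (three_ne_zero (α := k)) (hxm.symm.trans ex)
  rcases sq_eq_sq_iff_eq_or_eq_neg.1 hsq with e | e
  · exact e
  · exfalso
    have hYm : Y * (2 * m) = 9 * (m ^ 4 - a) :=
      (eq_div_iff (mul_ne_zero two_ne_zero hm)).1 hym
    have hne := sub_ne_zero.2 (h.pow_four_ne hm hqm)
    apply hne
    have h4 : w ^ 4 = m ^ 4 := by rw [e]; ring
    rw [e] at hYm hne ⊢
    linear_combination (-1 / 18 : k) * (hYm + ey)

end IsHesseShort

end Fermat.Agent.TwoAdic
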