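/-
The members of the Hesse family have Galois-equivariantly the same 3-torsion.
-/
import Fermat.Agent.TwoAdic.HessePoints
import Fermat.Agent.EC.Torsion.Count
import Fermat.Agent.EC.Det.Transport
import Fermat.Prelude.Def_FLTPrelim_GaloisRep
import Mathlib.Algebra.Algebra.Rat

set_option autoImplicit false
set_option linter.unusedSectionVars false

namespace Fermat.Agent.TwoAdic

open WeierstrassCurve
open scoped WeierstrassCurve.Affine
open Fermat.Agent.Switch (qf)

section general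

variable {k : Type*} [Field k] [CharZero k] [DecidableEq k] {E E' : WeierstrassCurve.Affine k}
  {a b A B s t : k}

theorem hesseTau_root (h : IsHesseShort E a b) (s t : k) {P : E.Point} (hP : (3 : ℤ) • P = 0) :
    hesseTau a s t (hesseParam a P) = 0 ∨
      qf (hesseC4 a b s t) (hesseC6 a b s t) (hesseTau a s t (hesseParam a P) ^ 2) = 0 := by
  by_cases h0 : P = 0
  · subst h0; exact .inl (by simp)
  · obtain ⟨hu, hq⟩ := h.qf_param hP h0
    exact .inr (qf_hesseTau s t hu hq)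

variable (h : IsHesseShort E a b) (h' : IsHesseShort E' A B) (hA : A = hesseC4 a b s t)
  (hB : B = hesseC6 a b s t)

include h h' hA hB

theorem exists_transfer {P : E.Point} (hP : (3 : ℤ) • P = 0) :
    ∃ Q : E'.Point, (3 : ℤ) • Q = 0 ∧ hesseParam A Q = hesseTau a s t (hesseParam a P) :=
  h'.exists_of_param (by rw [hA, hB]; exact hesseTau_root h s t hP)

theorem transfer_ne_zero {P : E.Point} (hP : (3 : ℤ) • P = 0) (h0 : P ≠ 0) :
    hesseTau a s t (hesseParam a P) ≠ 0 := by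
  obtain ⟨hu, hq⟩ := h.qf_param hP h0
  exact hesseTau_ne_zero s t hu hq (hA ▸ h'.ha)

/-- Transfer along the family is additive. -/
theorem transfer_add {P Q : E.Point} {P' Q' R' : E'.Point} (hP : (3 : ℤ) • P = 0)
    (hQ : (3 : ℤ) • Q = 0) (hP' : (3 : ℤ) • P' = 0) (hQ' : (3 : ℤ) • Q' = 0)
    (hR' : (3 : ℤ) • R' = 0) (eP : hesseParam A P' = hesseTau a s t (hesseParam a P))
    (eQ : hesseParam A Q' = hesseTau a s t (hesseParam a Q))
    (eR : hesseParam A R' = hesseTau a s t (hesseParam a (P + Q))) : R' = P' + Q' := by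
  refine h'.param_injective hR' (IsHesseShort.three_zsmul_add hP' hQ') ?_
  rw [eR]
  by_cases hp : P = 0
  · subst hp
    have : P' = 0 := h'.param_injective hP' (zsmul_zero _) (by simp [eP])
    rw [this, zero_add, zero_add, eQ]
  by_cases hq : Q = 0
  · subst hq
    have : Q' = 0 := h'.param_injective hQ' (zsmul_zero _) (by simp [eQ])
    rw [this, add_zero, add_zero, eP]
  by_cases hpq : Q = P
  · subst hpq
    have : Q' = P' := h'.param_injective hQ' hP' (by rw [eP, eQ])
    subst this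
    have e1 : Q + Q = -Q := by linear_combination (norm := module) hP
    have e2 : Q' + Q' = -Q' := by linear_combination (norm := module) hP'
    rw [e1, e2, h.param_neg, h'.param_neg, hesseTau_neg, eP]
  by_cases hpn : Q = -P
  · subst hpn
    have : Q' = -P' := h'.param_injective hQ' (by rw [zsmul_neg, hP', neg_zero])
      (by rw [eQ, h.param_neg, h'.param_neg, hesseTau_neg, eP])
    rw [this, add_neg_cancel, add_neg_cancel]
    simp
  obtain ⟨hu, hqu⟩ := h.qf_param hP hp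
  obtain ⟨hv, hqv⟩ := h.qf_param hQ hq
  have huv : hesseParam a P ^ 2 ≠ hesseParam a Q ^ 2 := fun e => by
    rcases sq_eq_sq_iff_eq_or_eq_neg.1 e with e' | e'
    · exact hpq (h.param_injective hQ hP e'.symm)
    · refine hpn (h.param_injective hQ (by rw [zsmul_neg, hP, neg_zero]) ?_)
      rw [h.param_neg, e', neg_neg]
  have hsum : hesseParam a (P + Q) ≠ 0 :=
    (h.qf_param (IsHesseShort.three_zsmul_add hP hQ) fun e => hpn (eq_neg_of_add_eq_zero_right e)).1
  set u := hesseParam a P with hudef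
  set v := hesseParam a Q with hvdef
  have hadd : hesseParam a (P + Q) =
      -(((1 + 3 * hesseOr a u v) * u + (1 - 3 * hesseOr a u v) * v) / 2) :=
    h.param_add hP hQ hu hv huv
  have hr := hesseOr_sq hu hv huv hqu hqv
  have ha := hesseOr_spec (a := a) hu hv huv
  set r := hesseOr a u v
  have hw : (1 + 3 * r) * u + (1 - 3 * r) * v ≠ 0 := fun e => hsum (by rw [hadd, e]; simp)
  have hC := hesseC4_eq_of_or (s := s) (t := t) hu hv hqu hr ha
  rw [← hA] at hC
  have hu' : hesseTau a s t u ≠ 0 := hesseTau_ne_zero s t hu hqu (hA ▸ h'.ha)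
  have hv' : hesseTau a s t v ≠ 0 := hesseTau_ne_zero s t hv hqv (hA ▸ h'.ha)
  have huv' : hesseTau a s t u ^ 2 ≠ hesseTau a s t v ^ 2 := fun e => by
    refine h'.pow_four_ne hu' (by rw [hA, hB]; exact qf_hesseTau s t hu hqu) ?_
    rw [hC, ← e, sub_self, mul_zero, add_zero, mul_pow, ← e]
    ring
  have hadd' : hesseParam A (P' + Q') = _ :=
    h'.param_add hP' hQ' (by rw [eP]; exact hu') (by rw [eQ]; exact hv')
      (by rw [eP, eQ]; exact huv')
  rw [eP, eQ] at hadd'
  have hor : hesseOr A (hesseTau a s t u) (hesseTau a s t v) = r := by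
    rw [hesseOr, div_eq_iff (mul_ne_zero (mul_ne_zero hu' hv') (sub_ne_zero.2 huv'))]
    linear_combination hC
  rw [hor] at hadd'
  rw [hadd', hadd]
  exact hesseTau_combination hu hv hw hr ha

end general

local notation "Qbar" => AlgebraicClosure ℚ

/-- `y² = x³ - 27 a x - 54 b`. -/
def hesseShortCurve (a b : ℚ) : WeierstrassCurve ℚ := ⟨0, 0, 0, -27 * a, -54 * b⟩

theorem exists_smul_eq_hesseShortCurve (E : WeierstrassCurve ℚ) :
    ∃ C : VariableChange ℚ, C • E = hesseShortCurve E.c₄ E.c₆ := by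
  refine ⟨⟨Units.mk0 (1 / 6) (by norm_num), -E.b₂ / 12, -E.a₁ / 2,
    -(E.a₁ * (-E.b₂ / 12) + E.a₃) / 2⟩, ?_⟩
  ext <;>
    simp [hesseShortCurve, variableChange_def, WeierstrassCurve.c₄, WeierstrassCurve.c₆,
      WeierstrassCurve.b₂, WeierstrassCurve.b₄, WeierstrassCurve.b₆] <;> ring

theorem isHesseShort_baseChange {a b : ℚ} (ha : a ≠ 0) (hab : a ^ 3 ≠ b ^ 2) :
    IsHesseShort ((hesseShortCurve a b)⁄Qbar : Affine Qbar) (a : Qbar) (b : Qbar) := by
  refine ⟨?_, ?_, ?_, ?_, ?_, by exact_mod_cast ha, by exact_mod_cast hab⟩ <;>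
    simp [hesseShortCurve, WeierstrassCurve.baseChange]

theorem hesseParam_smul {a b : ℚ} (σ : Qbar ≃ₐ[ℚ] Qbar)
    (P : ((hesseShortCurve a b)⁄Qbar).Point) :
    hesseParam (a : Qbar) (σ • P) = σ (hesseParam (a : Qbar) P) := by
  rcases P with _ | ⟨x, y, hxy⟩
  · exact (map_zero σ).symm
  · rw [Affine.Point.algEquiv_smul_def, Affine.Point.map_some]
    simp [hesseParam, map_ofNat]

theorem exists_shortThree_equiv {a b A B s t : ℚ} (ha : a ≠ 0) (hab : a ^ 3 ≠ b ^ 2)
    (hA0 : A ≠ 0) (hAB : A ^ 3 ≠ B ^ 2) (hA : A = hesseC4 a b s t) (hB : B = hesseC6 a b s t) :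
    ∃ φ : Submodule.torsionBy ℤ ((hesseShortCurve a b)⁄Qbar).Point (3 : ℕ) ≃ₗ[ZMod 3]
        Submodule.torsionBy ℤ ((hesseShortCurve A B)⁄Qbar).Point (3 : ℕ),
      ∀ (σ : Qbar ≃ₐ[ℚ] Qbar) P, φ (σ • P) = σ • φ P := by
  have h := isHesseShort_baseChange ha hab
  have h' := isHesseShort_baseChange hA0 hAB
  have hA' : (A : Qbar) = hesseC4 (a : Qbar) b s t := by rw [hA]; simp [hesseC4]
  have hB' : (B : Qbar) = hesseC6 (a : Qbar) b s t := by rw [hB]; simp [hesseC6]
  have mem : ∀ {V : WeierstrassCurve ℚ} (P : Submodule.torsionBy ℤ (V⁄Qbar).Point (3 : ℕ)),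
      (3 : ℤ) • (P : (V⁄Qbar).Point) = 0 := fun P => by
    simpa using (Submodule.mem_torsionBy_iff _ _).1 P.2
  choose f hf3 hf using fun P : Submodule.torsionBy ℤ ((hesseShortCurve a b)⁄Qbar).Point (3 : ℕ) =>
    exists_transfer h h' hA' hB' (mem P)
  let g : Submodule.torsionBy ℤ ((hesseShortCurve a b)⁄Qbar).Point (3 : ℕ) →+
      Submodule.torsionBy ℤ ((hesseShortCurve A B)⁄Qbar).Point (3 : ℕ) :=
    AddMonoidHom.mk'
      (fun P => ⟨f P, (Submodule.mem_torsionBy_iff _ _).2 (by simpa using hf3 P)⟩)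
      fun P Q => Subtype.ext (transfer_add h h' hA' hB' (mem P) (mem Q) (hf3 P) (hf3 Q)
        (hf3 (P + Q)) (hf P) (hf Q) (hf (P + Q)))
  have hinj : Function.Injective g := (injective_iff_map_eq_zero g).2 fun P hP => by
    by_contra hne
    refine transfer_ne_zero h h' hA' hB' (mem P) (fun e => hne (Subtype.ext e)) ?_
    have e : f P = 0 := congrArg Subtype.val hP
    rw [← hf P, e, hesseParam_zero]
  have card : ∀ {u v : ℚ}, u ^ 3 ≠ v ^ 2 →
      Nat.card (Submodule.torsionBy ℤ ((hesseShortCurve u v)⁄Qbar).Point (3 : ℕ)) = 9 := by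
    intro u v huv
    haveI : (hesseShortCurve u v).IsElliptic := by
      refine ⟨isUnit_iff_ne_zero.2 ?_⟩
      have e : (hesseShortCurve u v).Δ = 1259712 * (u ^ 3 - v ^ 2) := by
        simp only [hesseShortCurve, WeierstrassCurve.Δ, WeierstrassCurve.b₂, WeierstrassCurve.b₄,
          WeierstrassCurve.b₆, WeierstrassCurve.b₈]
        ring
      rw [e]
      exact mul_ne_zero (by norm_num) (sub_ne_zero.2 huv)
    simpa using Fermat.Agent.EC.natCard_torsionBy_baseChange (F := Qbar) (hesseShortCurve u v)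
      (n := 3) (by norm_num)
  haveI : Finite (Submodule.torsionBy ℤ ((hesseShortCurve A B)⁄Qbar).Point (3 : ℕ)) :=
    Nat.finite_of_card_ne_zero (by rw [card hAB]; norm_num)
  have hbij : Function.Bijective g :=
    hinj.bijective_of_nat_card_le (by rw [card hAB, card hab])
  refine ⟨AddEquiv.toLinearEquiv (AddEquiv.ofBijective g hbij)
    (fun c x => ZMod.map_smul g c x), fun σ P => ?_⟩
  apply Subtype.ext
  show f (σ • P) = σ • f P
  refine h'.param_injective (hf3 _) ?_ ?_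
  · rw [← Affine.Point.algEquiv_smul_zsmul, hf3 P, smul_zero]
  · rw [hf, hesseParam_smul σ (f P), hf P]
    show hesseTau (a : Qbar) s t (hesseParam (a : Qbar) (σ • (P : ((hesseShortCurve a b)⁄Qbar).Point))) = _
    rw [hesseParam_smul σ]
    simp [hesseTau, map_ofNat]

/-- **The Hesse family.** Curves over `ℚ` in the Hesse family of `E` have the same 3-torsion as `E`,
compatibly with the Galois action. -/
theorem exists_torsionThree_equiv (E E' : WeierstrassCurve ℚ) (hΔ : E.Δ ≠ 0) (hΔ' : E'.Δ ≠ 0)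
    (hc4 : E.c₄ ≠ 0) (hc4' : E'.c₄ ≠ 0) (s t : ℚ)
    (h4 : E'.c₄ = hesseC4 E.c₄ E.c₆ s t) (h6 : E'.c₆ = hesseC6 E.c₄ E.c₆ s t) :
    ∃ φ : Submodule.torsionBy ℤ (E⁄Qbar).Point (3 : ℕ) ≃ₗ[ZMod 3]
        Submodule.torsionBy ℤ (E'⁄Qbar).Point (3 : ℕ),
      ∀ (σ : Qbar ≃ₐ[ℚ] Qbar) P, φ (σ • P) = σ • φ P := by
  have hne : ∀ F : WeierstrassCurve ℚ, F.Δ ≠ 0 → F.c₄ ^ 3 ≠ F.c₆ ^ 2 := fun F hF e => by
    have := F.c_relation
    rw [e, sub_self] at this
    exact hF (by simpa using this)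
  obtain ⟨ψ, hψ⟩ := exists_shortThree_equiv hc4 (hne E hΔ) hc4' (hne E' hΔ') h4 h6
  obtain ⟨C, hC⟩ := exists_smul_eq_hesseShortCurve E
  obtain ⟨C', hC'⟩ := exists_smul_eq_hesseShortCurve E'
  refine ⟨((Fermat.Agent.EC.torsionEquiv (K := Qbar) hC 3).symm.trans ψ).trans
    (Fermat.Agent.EC.torsionEquiv (K := Qbar) hC' 3), fun σ P => ?_⟩
  obtain ⟨P, rfl⟩ := (Fermat.Agent.EC.torsionEquiv (K := Qbar) hC 3).surjective P
  simp only [LinearEquiv.trans_apply, ← Fermat.Agent.EC.torsionEquiv_smul hC,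
    LinearEquiv.symm_apply_apply, hψ, Fermat.Agent.EC.torsionEquiv_smul hC']

end Fermat.Agent.TwoAdic
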