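/-
Interface of the Hesse family for the choice of the auxiliary curve: the quartic as a form for the
sieve, and the congruence of traces for rescaled integral members.
-/
import Fermat.Agent.TwoAdic.HesseTorsion
import Fermat.Agent.TwoAdic.Sieve.Defs
import Fermat.Agent.Switch.TraceGlue
import Fermat.Agent.EC.Frob.Trace
import Mathlib.FieldTheory.Separable
import Mathlib.Algebra.Squarefree.Basic

set_option autoImplicit false
set_option linter.unusedSectionVars false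

open Polynomial

namespace Fermat.Agent.TwoAdic

open WeierstrassCurve
open scoped WeierstrassCurve.Affine

theorem hesseD_eq_quarticForm {R : Type*} [CommRing R] (a b s t : R) :
    hesseD a b s t = quarticForm 1 0 (-6 * a) (-8 * b) (-3 * a ^ 2) s t := by
  simp only [hesseD, quarticForm]; ring

section poly

variable {K : Type*} [Field K] [CharZero K]

theorem separable_hessePoly {a b : K} (ha : a ≠ 0) (hab : a ^ 3 ≠ b ^ 2) :
    (quarticPoly (1 : K) 0 (-6 * a) (-8 * b) (-3 * a ^ 2)).Separable := by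
  set f := quarticPoly (1 : K) 0 (-6 * a) (-8 * b) (-3 * a ^ 2) with hf
  set g : K[X] := X ^ 3 - C (3 * a) * X - C (2 * b) with hg
  set e := a ^ 3 - b ^ 2 with he
  have hc : 12 * a ^ 2 * e ≠ 0 :=
    mul_ne_zero (mul_ne_zero (by norm_num) (pow_ne_zero _ ha)) (sub_ne_zero.2 hab)
  have hd : derivative f = C 4 * g := by
    rw [hf, hg]
    simp only [quarticPoly, map_mul, map_pow, map_neg, map_ofNat, map_one, map_zero,
      derivative_add, derivative_mul, derivative_C, derivative_X_pow, derivative_X,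
      derivative_neg, derivative_one, derivative_ofNat, derivative_pow, derivative_zero]
    push_cast
    simp only [map_ofNat]
    ring
  have key : C (12 * a ^ 2 * e) =
      (C (-4 * e) - (C a * X + C (2 * b)) * (C (2 * b) - C a * X)) * f +
      (C (4 * e) * X - (C a * X + C (2 * b)) * (C a * X ^ 2 - C (3 * a ^ 2) - C (2 * b) * X)) *
        g := by
    rw [hf, hg, he]
    simp only [quarticPoly, map_mul, map_pow, map_sub, map_neg, map_ofNat, map_one, map_zero]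
    ring
  obtain ⟨A, B, hAB⟩ : ∃ A B : K[X], C (12 * a ^ 2 * e) = A * f + B * g := ⟨_, _, key⟩
  have hfg : IsCoprime f g := ⟨C (12 * a ^ 2 * e)⁻¹ * A, C (12 * a ^ 2 * e)⁻¹ * B, by
    calc _ = C (12 * a ^ 2 * e)⁻¹ * (A * f + B * g) := by ring
      _ = 1 := by rw [← hAB, ← C_mul, inv_mul_cancel₀ hc, C_1]⟩
  rw [Polynomial.separable_def, hd]
  exact (isCoprime_mul_unit_left_right (isUnit_C.2 (isUnit_iff_ne_zero.2 (by norm_num))) f g).2 hfg

/-- The sieve hypothesis for the quartic of the Hesse family. -/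
theorem squarefree_hessePoly {a b : ℤ} (ha : a ≠ 0) (hab : a ^ 3 ≠ b ^ 2) :
    Squarefree ((quarticPoly (1 : ℤ) 0 (-6 * a) (-8 * b) (-3 * a ^ 2)).map
      (Int.castRingHom ℚ)) := by
  have := (separable_hessePoly (K := ℚ) (a := (a : ℚ)) (b := (b : ℚ)) (Int.cast_ne_zero.2 ha)
    (by exact_mod_cast hab)).squarefree
  simpa [quarticPoly, Polynomial.map_ofNat, map_ofNat] using this

end poly

local notation "Qbar" => AlgebraicClosure ℚ

/-- A rescaled integral member of the Hesse family of `W` has the same 3-torsion as `W`. -/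
theorem exists_torsionThree_equiv_of_member (W V : WeierstrassCurve ℤ) (hW : W.Δ ≠ 0)
    (hV : V.Δ ≠ 0) (hc : W.c₄ ≠ 0) (hc' : V.c₄ ≠ 0) {s t u : ℤ} (hu : u ≠ 0)
    (h4 : hesseC4 W.c₄ W.c₆ s t = u ^ 4 * V.c₄) (h6 : hesseC6 W.c₄ W.c₆ s t = u ^ 6 * V.c₆) :
    ∃ φ : Submodule.torsionBy ℤ ((W.map (Int.castRingHom ℚ))⁄Qbar).Point (3 : ℕ) ≃ₗ[ZMod 3]
        Submodule.torsionBy ℤ ((V.map (Int.castRingHom ℚ))⁄Qbar).Point (3 : ℕ),
      ∀ (σ : Qbar ≃ₐ[ℚ] Qbar) P, φ (σ • P) = σ • φ P := by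
  set f := Int.castRingHom ℚ with hf
  have hu' : (u : ℚ) ≠ 0 := Int.cast_ne_zero.2 hu
  let C : VariableChange ℚ := ⟨(Units.mk0 (u : ℚ) hu')⁻¹, 0, 0, 0⟩
  have e4 : (C • V.map f).c₄ = (u : ℚ) ^ 4 * (V.c₄ : ℚ) := by
    rw [variableChange_c₄, WeierstrassCurve.map_c₄]; simp [C, hf]
  have e6 : (C • V.map f).c₆ = (u : ℚ) ^ 6 * (V.c₆ : ℚ) := by
    rw [variableChange_c₆, WeierstrassCurve.map_c₆]; simp [C, hf]
  have hd : (C • V.map f).Δ ≠ 0 := by
    rw [variableChange_Δ, WeierstrassCurve.map_Δ]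
    simp [C, hf, hV, hu']
  obtain ⟨ψ, hψ⟩ := exists_torsionThree_equiv (W.map f) (C • V.map f)
    (by rw [WeierstrassCurve.map_Δ]; simpa [hf] using hW) hd
    (by rw [WeierstrassCurve.map_c₄]; simpa [hf] using hc)
    (by rw [e4]; exact mul_ne_zero (pow_ne_zero _ hu') (Int.cast_ne_zero.2 hc'))
    (s : ℚ) (t : ℚ)
    (by
      rw [e4, WeierstrassCurve.map_c₄, WeierstrassCurve.map_c₆]
      have := congrArg f h4; rw [map_hesseC4, map_mul, map_pow] at this; simpa [hf] using this.symm)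
    (by
      rw [e6, WeierstrassCurve.map_c₄, WeierstrassCurve.map_c₆]
      have := congrArg f h6; rw [map_hesseC6, map_mul, map_pow] at this; simpa [hf] using this.symm)
  refine ⟨ψ.trans (Fermat.Agent.EC.torsionEquiv (K := Qbar)
    (rfl : C • V.map f = C • V.map f) 3), fun σ P => ?_⟩
  simp only [LinearEquiv.trans_apply, hψ, Fermat.Agent.EC.torsionEquiv_smul]

/-- Traces of Frobenius agree modulo 3 along the Hesse family. -/
theorem dvd_apOfModel_sub_of_member (W V : WeierstrassCurve ℤ) (hW : W.Δ ≠ 0)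
    (hV : V.Δ ≠ 0) (hc : W.c₄ ≠ 0) (hc' : V.c₄ ≠ 0) {s t u : ℤ} (hu : u ≠ 0)
    (h4 : hesseC4 W.c₄ W.c₆ s t = u ^ 4 * V.c₄) (h6 : hesseC6 W.c₄ W.c₆ s t = u ^ 6 * V.c₆)
    {ℓ : ℕ} (hℓ : ℓ.Prime) (hℓ3 : ℓ ≠ 3) (hg : W.IsGoodPrimeFor ℓ) (hg' : V.IsGoodPrimeFor ℓ) :
    (3 : ℤ) ∣ V.apOfModel ℓ - W.apOfModel ℓ := by
  obtain ⟨φ, hφ⟩ := exists_torsionThree_equiv_of_member W V hW hV hc hc' hu h4 h6
  refine Fermat.Agent.Switch.dvd_apOfModel_sub_of_torsion_equiv (p := 3) ?_ W V φ hφ hℓ hℓ3 hg hg'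
  intro U ℓ' A σ hℓ' hne hgU hA hσ
  exact Fermat.Agent.EC.galoisTrace_frobenius U hℓ' hA hgU hσ (by norm_num)
    fun h => hne ((Nat.prime_dvd_prime_iff_eq hℓ' Nat.prime_three).mp h)

end Fermat.Agent.TwoAdic
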