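/-
Consequences of the equivariant isomorphism of 3-torsion along the Hesse family, and the
nonvanishing of `c₄` for a semistable integral model.
-/
import Fermat.Agent.TwoAdic.HesseFamily
import Fermat.Prelude.Def_FLTPrelim_ModularRep

set_option autoImplicit false

namespace Fermat.Agent.TwoAdic

open WeierstrassCurve WeierstrassCurve.Affine.Point
open scoped WeierstrassCurve.Affine

local notation "Qbar" => AlgebraicClosure ℚ

theorem c₄_ne_zero_of_isSemistableModel (W : WeierstrassCurve ℤ) (hΔ : W.Δ ≠ 0)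
    (hW : W.IsSemistableModel) : W.c₄ ≠ 0 := by
  intro h4
  have hrel := W.c_relation
  rw [h4] at hrel
  have hΔ1 : W.Δ.natAbs = 1 := by
    by_contra h
    obtain ⟨p, hp, hpd⟩ := Nat.exists_prime_and_dvd h
    exact hW p hp (Int.natCast_dvd.mpr hpd) (h4 ▸ dvd_zero _)
  have h6 : W.c₆.natAbs ^ 2 = 1728 := by
    have h := congrArg Int.natAbs hrel
    rw [Int.natAbs_mul, hΔ1, mul_one] at h
    simp only [ne_eq, OfNat.ofNat_ne_zero, not_false_eq_true, zero_pow, zero_sub, Int.natAbs_neg,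
      Int.natAbs_pow] at h
    simpa using h.symm
  rcases Nat.lt_or_ge W.c₆.natAbs 42 with hlt | hge
  · have : W.c₆.natAbs ^ 2 ≤ 41 ^ 2 := Nat.pow_le_pow_left (by omega) 2
    omega
  · have : 42 ^ 2 ≤ W.c₆.natAbs ^ 2 := Nat.pow_le_pow_left hge 2
    omega

/-- Irreducibility mod 3 passes along the Hesse family. -/
theorem modRepIsIrreducible_three_of_member (W V : WeierstrassCurve ℤ) (hW : W.Δ ≠ 0)
    (hV : V.Δ ≠ 0) (hc : W.c₄ ≠ 0) (hc' : V.c₄ ≠ 0) {s t u : ℤ} (hu : u ≠ 0)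
    (h4 : hesseC4 W.c₄ W.c₆ s t = u ^ 4 * V.c₄) (h6 : hesseC6 W.c₄ W.c₆ s t = u ^ 6 * V.c₆)
    (h3 : W.ModRepIsIrreducible 3) : V.ModRepIsIrreducible 3 := by
  obtain ⟨φ, hφ⟩ := exists_torsionThree_equiv_of_member W V hW hV hc hc' hu h4 h6
  obtain ⟨hnt, hmax⟩ := h3
  refine ⟨φ.toEquiv.nontrivial_congr.mp hnt, fun N hN => ?_⟩
  have hN' : IsGaloisStable ℚ (N.comap φ.toLinearMap) := fun σ x hx => by
    simp only [Submodule.mem_comap, LinearEquiv.coe_coe, hφ] at hx ⊢
    exact hN σ _ hx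
  rcases hmax _ hN' with h' | h'
  · refine .inl (Submodule.eq_bot_iff _ |>.2 fun x hx => ?_)
    have : φ.symm x ∈ N.comap φ.toLinearMap := by simpa using hx
    simpa [h'] using this
  · refine .inr (Submodule.eq_top_iff'.2 fun x => ?_)
    have : φ.symm x ∈ N.comap φ.toLinearMap := h'.symm ▸ Submodule.mem_top
    simpa using this

end Fermat.Agent.TwoAdic
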