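import Fermat.Agent.TwoAdic.RankBound
import Mathlib.NumberTheory.Padics.Complex
import Mathlib.GroupTheory.CosetCover
import Mathlib.LinearAlgebra.Matrix.Adjugate
import Mathlib.RingTheory.Valuation.Integral

/-!
# A point close to a congruence

If a `ℤ₂`-algebra `R` is spanned by as many elements as it has points `χ` in `ℚ̄₂`, and `φ` is a
ring map to `ℤ / 2 ^ m`, then one of the points is small on the whole kernel of `φ`: for `y` in
the kernel the product of the `χ y` is the determinant of multiplication by `y`, hence divisible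
by `2 ^ m`, and a group is not the union of subgroups all of index larger than their number.
-/

set_option autoImplicit false

open scoped Pointwise

noncomputable section

namespace Fermat.Agent.TwoAdic

local notation "Ω" => PadicAlgCl 2

theorem norm_algebraMap_padicInt (z : ℤ_[2]) : ‖algebraMap ℤ_[2] Ω z‖ = ‖z‖ := by
  rw [IsScalarTower.algebraMap_apply ℤ_[2] ℚ_[2] Ω, norm_algebraMap']
  rfl

theorem norm_le_one_of_isIntegral_two {x : Ω} (hx : IsIntegral ℤ_[2] x) : ‖x‖ ≤ 1 := by
  let O := (PadicAlgCl.valued 2).v.integer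
  let ψ : ℤ_[2] →+* O := (algebraMap ℤ_[2] Ω).codRestrict O fun c => by
    rw [Valuation.mem_integer_iff, PadicAlgCl.valuation_def, ← NNReal.coe_le_coe, coe_nnnorm,
      norm_algebraMap_padicInt, NNReal.coe_one]
    exact c.norm_le_one
  obtain ⟨f, hf, hf0⟩ := hx
  have hint : IsIntegral O x := ⟨f.map ψ, hf.map ψ, by rw [Polynomial.eval₂_map]; exact hf0⟩
  have h := Valuation.Integers.mem_of_integral
    (Valuation.integer.integers (PadicAlgCl.valued 2).v) hint
  rw [Valuation.mem_integer_iff, PadicAlgCl.valuation_def, ← NNReal.coe_le_coe, coe_nnnorm,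
    NNReal.coe_one] at h
  exact h

/-- A nonzero natural number less than `2 ^ C` has norm at least `2 ^ (-C)`. -/
theorem inv_two_pow_le_norm_natCast {m C : ℕ} (hm0 : m ≠ 0) (hm : m ≤ 2 ^ C) :
    ((2 : ℝ) ^ C)⁻¹ ≤ ‖(m : Ω)‖ := by
  have h1 : ‖(m : Ω)‖ = ‖(m : ℤ_[2])‖ := by
    rw [← map_natCast (algebraMap ℤ_[2] Ω) m, norm_algebraMap_padicInt]
  rw [h1, PadicInt.norm_eq_zpow_neg_valuation (Nat.cast_ne_zero.mpr hm0)]
  rw [Nat.cast_ofNat, zpow_neg, zpow_natCast]
  gcongr
  · norm_num
  · have hval : PadicInt.valuation (m : ℤ_[2]) = padicValNat 2 m := by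
      have h := PadicInt.valuation_coe (m : ℤ_[2])
      rw [PadicInt.coe_natCast, Padic.valuation_natCast] at h
      exact_mod_cast h.symm
    rw [hval]
    exact (Nat.pow_le_pow_iff_right (by norm_num)).mp
      ((Nat.le_of_dvd (Nat.pos_of_ne_zero hm0) pow_padicValNat_dvd).trans hm)

variable {R : Type*} [CommRing R] [Algebra ℤ_[2] R] {β ι : Type*} [Fintype β] [Fintype ι]

/-- One of the points is small on the kernel of `φ`. -/
theorem exists_point_small (b : β → R)
    (hspan : Function.Surjective (fun c : β → ℤ_[2] => ∑ i, c i • b i))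
    (χ : ι → (R →ₐ[ℤ_[2]] Ω)) (hχ : Function.Injective χ)
    (hcard : Fintype.card β ≤ Fintype.card ι) {m : ℕ} (φ : R →+* ZMod (2 ^ m)) (n : ℕ)
    (hm : (n + Fintype.card ι) * Fintype.card ι ≤ m) (hm0 : m ≠ 0) :
    ∃ j, ∀ y : R, φ y = 0 → ‖χ j y‖ ≤ ((2 : ℝ) ^ n)⁻¹ := by
  classical
  have : Module.Finite ℤ_[2] R := by
    refine Module.Finite.of_surjective (Fintype.linearCombination ℤ_[2] b) ?_
    intro r
    obtain ⟨c, hc⟩ := hspan r
    exact ⟨c, by simpa [Fintype.linearCombination_apply] using hc⟩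
  have hle1 : ∀ j y, ‖χ j y‖ ≤ 1 := fun j y =>
    norm_le_one_of_isIntegral_two ((Algebra.IsIntegral.isIntegral y).map (χ j))
  -- the product of the points at an element of the kernel
  have hprod : ∀ y : R, φ y = 0 → ∏ j, ‖χ j y‖ ≤ ((2 : ℝ) ^ m)⁻¹ := by
    intro y hy
    obtain ⟨e⟩ := Fintype.card_eq.mp (le_antisymm hcard (card_points_le b hspan χ hχ))
    choose A hA using fun i => hspan (y * b i)
    let N : Matrix β β ℤ_[2] := Matrix.of fun i k => A i k
    let M : Matrix β β Ω := Matrix.of fun i r => χ (e r) (b i)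
    have hdet : M.det ≠ 0 := by
      have hrow : LinearIndependent Ω M.transpose.row :=
        (linearIndependent_points b hspan χ hχ).comp e e.injective
      rw [← Matrix.det_transpose]
      exact ((Matrix.isUnit_iff_isUnit_det _).mp
        (Matrix.linearIndependent_rows_iff_isUnit.mp hrow)).ne_zero
    have hmat : N.map (algebraMap ℤ_[2] Ω) * M =
        M * Matrix.diagonal fun r => χ (e r) y := by
      ext i r
      have h := congrArg (χ (e r)) (hA i)
      simp only [map_sum, map_smul, map_mul] at h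
      rw [Matrix.mul_diagonal]
      simp only [Matrix.mul_apply, Matrix.map_apply, N, M, Matrix.of_apply,
        ← Algebra.smul_def]
      rw [h, mul_comm]
    have hdetN : algebraMap ℤ_[2] Ω N.det = ∏ j, χ j y := by
      have h := congrArg Matrix.det hmat
      rw [Matrix.det_mul, Matrix.det_mul, Matrix.det_diagonal, mul_comm M.det] at h
      rw [RingHom.map_det, RingHom.mapMatrix_apply, mul_right_cancel₀ hdet h]
      exact Equiv.prod_comp e fun j => χ j y
    -- `det N` is a multiple of `y`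
    have hmul : ∀ l, N.det • b l = y * ∑ i, N.adjugate l i • b i := by
      intro l
      rw [Finset.mul_sum]
      simp only [mul_smul_comm, ← hA, Finset.smul_sum, smul_smul]
      rw [Finset.sum_comm]
      have hadj : ∀ k, ∑ i, N.adjugate l i * A i k = N.det * (1 : Matrix β β ℤ_[2]) l k :=
        fun k => by
          have := congrFun (congrFun (Matrix.adjugate_mul N) l) k
          simpa [Matrix.mul_apply, N, Matrix.smul_apply] using this
      simp only [← Finset.sum_smul, hadj, Matrix.one_apply, mul_ite, mul_one, mul_zero, ite_smul,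
        zero_smul, Finset.sum_ite_eq, Finset.mem_univ, if_true]
    obtain ⟨c, hc⟩ := hspan 1
    have hker : φ (algebraMap ℤ_[2] R N.det) = 0 := by
      rw [show algebraMap ℤ_[2] R N.det = y * ∑ l, c l • ∑ i, N.adjugate l i • b i by
        rw [Algebra.algebraMap_eq_smul_one, ← hc, Finset.mul_sum, Finset.smul_sum]
        exact Finset.sum_congr rfl fun l _ => by rw [smul_comm, hmul, mul_smul_comm]]
      rw [map_mul, hy, zero_mul]
    have h0 : N.det ∈ Ideal.span {(2 : ℤ_[2]) ^ m} := by
      obtain ⟨w, hw⟩ := Ideal.mem_span_singleton.mp (PadicInt.appr_spec m N.det)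
      have hsub : N.det = (N.det.appr m : ℤ_[2]) + 2 ^ m * w := by
        rw [← (show ((2 : ℕ) : ℤ_[2]) = 2 from Nat.cast_ofNat), ← hw]; ring
      have h2 : ((2 : ZMod (2 ^ m)) ^ m) = 0 := by
        have := ZMod.natCast_self (2 ^ m); push_cast at this; exact this
      rw [hsub, map_add, map_mul, map_natCast, map_pow, map_ofNat, map_add, map_mul, map_natCast,
        map_pow, map_ofNat, h2, zero_mul, add_zero] at hker
      obtain ⟨d, hd⟩ := (ZMod.natCast_eq_zero_iff _ _).mp hker
      rw [hsub, hd]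
      refine Ideal.add_mem _ (Ideal.mem_span_singleton.mpr ⟨(d : ℤ_[2]), by push_cast; rfl⟩)
        (Ideal.mul_mem_right _ _ (Ideal.mem_span_singleton_self _))
    have hn : ‖N.det‖ ≤ ((2 : ℝ) ^ m)⁻¹ := by
      have := (PadicInt.norm_le_pow_iff_mem_span_pow N.det m).mpr (by simpa using h0)
      simpa [zpow_neg] using this
    calc ∏ j, ‖χ j y‖ = ‖∏ j, χ j y‖ := (norm_prod _ _).symm
      _ = ‖N.det‖ := by rw [← hdetN, norm_algebraMap_padicInt]
      _ ≤ _ := hn
  -- the kernel is covered by the subgroups where one point is small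
  set C := Fintype.card ι with hC
  set k := n + C with hk
  let I : AddSubgroup R := (RingHom.ker φ).toAddSubgroup
  let U : ι → AddSubgroup I := fun j =>
    { carrier := {y | ‖χ j (y : R)‖ ≤ ((2 : ℝ) ^ k)⁻¹}
      zero_mem' := by simp
      add_mem' := fun {x y} hx hy => by
        simpa using (IsUltrametricDist.norm_add_le_max _ _).trans (max_le hx hy)
      neg_mem' := fun {x} hx => by simpa using hx }
  have hcov : ⋃ j ∈ (Finset.univ : Finset ι), (0 : I) +ᵥ (U j : Set I) = Set.univ := by
    refine Set.eq_univ_of_forall fun y => ?_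
    by_contra hcon
    simp only [zero_vadd, Set.mem_iUnion, Finset.mem_univ, exists_true_left, not_exists,
      SetLike.mem_coe] at hcon
    have hlt : ∀ j, ((2 : ℝ) ^ k)⁻¹ < ‖χ j (y : R)‖ := fun j => not_le.mp (hcon j)
    have hp := hprod y y.2
    rcases isEmpty_or_nonempty ι with hι | hι
    · rw [Fintype.prod_empty] at hp
      exact absurd hp (not_le.mpr (inv_lt_one_of_one_lt₀ (one_lt_pow₀ one_lt_two hm0)))
    · have h1 : ∏ _j : ι, ((2 : ℝ) ^ k)⁻¹ < ∏ j, ‖χ j (y : R)‖ :=
        Finset.prod_lt_prod_of_nonempty (fun _ _ => by positivity) (fun j _ => hlt j)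
          Finset.univ_nonempty
      rw [Finset.prod_const, Finset.card_univ, inv_pow, ← pow_mul] at h1
      have h2 : ((2 : ℝ) ^ m)⁻¹ ≤ ((2 : ℝ) ^ (k * C))⁻¹ :=
        inv_anti₀ (by positivity) (pow_le_pow_right₀ one_le_two hm)
      exact absurd (hp.trans h2) (not_le.mpr h1)
  obtain ⟨j, -, hfin, hidx⟩ := AddSubgroup.exists_index_le_card_of_leftCoset_cover hcov
  refine ⟨j, fun y hy => ?_⟩
  have hmem : ((U j).index : ℕ) • (⟨y, hy⟩ : I) ∈ U j := (U j).nsmul_index_mem _
  have h1 : ‖((U j).index : Ω)‖ * ‖χ j y‖ ≤ ((2 : ℝ) ^ k)⁻¹ := by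
    have h : ‖χ j ((U j).index • y)‖ ≤ ((2 : ℝ) ^ k)⁻¹ := hmem
    rwa [map_nsmul, nsmul_eq_mul, norm_mul] at h
  have h2 : ((2 : ℝ) ^ C)⁻¹ ≤ ‖((U j).index : Ω)‖ :=
    inv_two_pow_le_norm_natCast hfin.index_ne_zero
      (hidx.trans (by rw [Finset.card_univ]; exact Nat.lt_two_pow_self.le))
  have h3 : ((2 : ℝ) ^ C)⁻¹ * ‖χ j y‖ ≤ ((2 : ℝ) ^ k)⁻¹ :=
    (mul_le_mul_of_nonneg_right h2 (norm_nonneg _)).trans h1
  rw [hk, pow_add, mul_inv, mul_comm ((2 : ℝ) ^ n)⁻¹] at h3
  exact le_of_mul_le_mul_left h3 (by positivity)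

end Fermat.Agent.TwoAdic
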