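import Fermat.Agent.TwoAdic.Contracts.Props
import Fermat.Agent.TwoAdic.Pigeonhole
import Fermat.Agent.BadPrime.Raise
import Fermat.Agent.TwoAdic.Switch.Curve
import Fermat.Agent.TwoAdic.Universal.Main
import Fermat.Agent.Galois.Frobenius
import Mathlib.RingTheory.Adjoin.Field
import Mathlib.FieldTheory.IntermediateField.Adjoin.Basic

/-!
# Residual modularity at `3` from the pieces of the two-adic route

`hasCloseSystem_of_bound` is the `R = T` step: the signed-line ring has at most as many generators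
modulo `2` as it has points coming from newforms, so it is cut out by these points and one of them
is close to the point of `V` modulo `2 ^ N`.
-/

set_option autoImplicit false

noncomputable section

open IsLocalRing Polynomial

namespace Fermat.Agent.TwoAdic

local notation "ℚ̄" => AlgebraicClosure ℚ

theorem prime_of_mem_signSet {V : WeierstrassCurve ℤ} {n : ℕ} {Q : Finset ℕ}
    (hQ : IsAuxSet V n Q) {p : ℕ} (hp : p ∈ signSet V Q) : p.Prime := by
  rcases Finset.mem_union.mp hp with h | h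
  · exact Nat.prime_of_mem_primeFactors h
  · exact (hQ.aux p h).prime

/-- Every curve with negative discriminant has its discriminant field. -/
theorem exists_discField (V : WeierstrassCurve ℤ) (hΔ : V.Δ < 0) :
    ∃ (K : Type) (_ : Field K) (_ : NumberField K), IsDiscField V K := by
  obtain ⟨s, hs⟩ := IsAlgClosed.exists_pow_nat_eq (V.Δ : ℚ̄) (n := 2) two_pos
  have hirr : Irreducible (X ^ 2 - C (V.Δ : ℚ) : ℚ[X]) := by
    refine X_pow_sub_C_irreducible_of_prime Nat.prime_two fun b hb => ?_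
    have : (V.Δ : ℚ) < 0 := by exact_mod_cast hΔ
    nlinarith [sq_nonneg b]
  have hint : IsIntegral ℚ s := Algebra.IsIntegral.isIntegral s
  let K := IntermediateField.adjoin ℚ {s}
  have : FiniteDimensional ℚ K := IntermediateField.adjoin.finiteDimensional hint
  have : NumberField K := ⟨⟩
  refine ⟨K, inferInstance, inferInstance, ?_, ⟨⟨s, IntermediateField.mem_adjoin_simple_self ℚ s⟩,
    Subtype.ext (by simpa using hs)⟩⟩
  rw [IntermediateField.adjoin.finrank hint,
    ← minpoly.eq_of_irreducible_of_monic hirr (by simp [hs]) (monic_X_pow_sub_C _ two_ne_zero),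
    natDegree_X_pow_sub_C]

theorem padicAlgebraMap_injective :
    Function.Injective (algebraMap ℤ_[2] (PadicAlgCl 2)) := by
  rw [IsScalarTower.algebraMap_eq ℤ_[2] ℚ_[2] (PadicAlgCl 2)]
  exact (algebraMap ℚ_[2] (PadicAlgCl 2)).injective.comp (IsFractionRing.injective ℤ_[2] ℚ_[2])

theorem IsTresModel.of_switchModel {V : WeierstrassCurve ℤ} (hV : IsTwoAdicSwitchModel V)
    (h2 : (2 : ℤ) ∣ V.Δ) : IsTresModel V where
  delta_neg := hV.Δ_neg
  semistable := hV.semistable
  two_dvd := h2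
  odd_val q hq hd := by
    rcases eq_or_ne q 2 with rfl | hq2
    · rcases hV.atTwo with h | h
      · exact h.2
      · omega
    · exact hV.odd_valuation q hq hq2 hd
  exists_five_le := hV.exists_bad
  no_two_torsion := hV.noTwoTorsion

/-- `R = T` and the pigeonhole principle: some eigenform of level `2 m ∏ Q` is close to `V`. -/
theorem hasCloseSystem_of_bound (hirr : ResidualIrreducible) (hpl : PlacesExist)
    (hbound : DihedralBound) (hcount : NewSystemCount) (hsys : SystemPoints) (hcurve : CurvePoint)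
    (V : WeierstrassCurve ℤ) (hV : IsTresModel V) (K : Type) [Field K] [NumberField K]
    (hK : IsDiscField V K) (N : ℕ) (hN : 2 ≤ N) (Q : Finset ℕ) (hQ : IsAuxSet V N Q)
    (hsel : SelmerTrivial V Q) (n : ℕ) (hn : (n + rankBound K Q) * rankBound K Q ≤ N) :
    HasCloseSystem V n (auxLevel V Q) := by
  classical
  obtain ⟨𝔪, hmax, h2'⟩ := FLTPrelim.exists_maximalIdeal_natCast_prime_mem Nat.prime_two
  have h2 : (2 : integralClosure ℤ ℂ) ∈ 𝔪 := by simpa using h2'
  obtain ⟨pl, hover, hres⟩ := hpl V hV N Q hN hQ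
  obtain ⟨D⟩ := nonempty_signedRingData pl (hirr V hV) hres
  obtain ⟨b, hb⟩ := hbound V hV K hK N Q hN hQ hsel pl hover hres D
  obtain ⟨ι, hι, hφ⟩ := hsys V hV N Q hN hQ 𝔪 hmax h2 pl hover hres D
  obtain ⟨φV, hφV⟩ := hcurve V hV N Q hN hQ pl hover hres D
  have hlb := hcount V hV K hK N Q hN hQ 𝔪 hmax h2
  set L := auxLevel V Q with hLdef
  set A := newSystems V 𝔪 L with hA
  have hpos : 0 < rankBound K Q := pow_pos two_pos _
  have hfin : A.Finite := Set.finite_of_ncard_pos (hpos.trans_le hlb)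
  have h2max : (2 : D.R) ∈ maximalIdeal D.R := two_mem_maximalIdeal
  have hspan : Function.Surjective (fun c : Fin (rankBound K Q) → ℤ_[2] => ∑ i, c i • b i) :=
    surjective_of_residual_generators (p := 2) (by simpa using h2max) b (by simpa using hb)
  -- a Frobenius element above each index
  choose P σ hP hσ using fun ℓ : HeckeIndex L =>
    Galois.exists_valuationSubring_isFrobeniusAt ℓ.1.2
  let x : HeckeIndex L → D.R := fun ℓ => D.ρ.trace (σ ℓ)
  choose φ hφ' using fun a : A => hφ a.1 a.2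
  have hval : ∀ (a : A) (ℓ : HeckeIndex L),
      ∃ c : integralClosure ℤ ℂ, (c : ℂ) = a.1 ℓ ∧ φ a (x ℓ) = ι c :=
    fun a ℓ => hφ' a ℓ _ (hP ℓ) _ (hσ ℓ)
  choose c hc hcx using hval
  have hinj : Function.Injective φ := by
    intro a a' h
    refine Subtype.ext (funext fun ℓ => ?_)
    have : ι (c a ℓ) = ι (c a' ℓ) := by rw [← hcx, ← hcx, h]
    rw [← hc a ℓ, ← hc a' ℓ, hι this]
  have : Fintype A := hfin.fintype
  have hcard : Fintype.card A = A.ncard := (Fintype.card_eq_nat_card).trans (Nat.card_coe_set_eq A)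
  have hub : Fintype.card A ≤ rankBound K Q :=
    (card_points_le b hspan φ hinj).trans_eq (Fintype.card_fin _)
  have heq : Fintype.card A = rankBound K Q := le_antisymm hub (hcard ▸ hlb)
  obtain ⟨a, ha⟩ := exists_point_small b hspan φ hinj (by rw [Fintype.card_fin, heq]) φV n
    (by rw [heq]; exact hn) (by omega)
  obtain ⟨L₀, g, hL₀, hg, hag, -⟩ := a.2
  have hdvd : L₀ ∣ L := by rcases hL₀ with h | h <;> exact h ▸ by simp
  have hL : NeZero L := ⟨Finset.prod_ne_zero_iff.mpr fun p hp => (prime_of_mem_signSet hQ hp).ne_zero⟩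
  have : NeZero L₀ := ⟨ne_zero_of_dvd_ne_zero hL.out hdvd⟩
  obtain ⟨f, hf, hfg⟩ := BadPrime.exists_eigenform_level_of_dvd hdvd hg.1
  refine ⟨f, hf, ι, hι, fun ℓ => ⟨c a ℓ, ?_, ?_⟩⟩
  · rw [hfg (ℓ.1 : ℕ) ℓ.1.2 ℓ.2, hc a ℓ, hag]
    rfl
  · have := ha (x ℓ - ((V.apOfModel (ℓ.1 : ℕ) : ℤ) : D.R))
      (by rw [map_sub, map_intCast, hφV ℓ _ (hP ℓ) _ (hσ ℓ), sub_self])
    rwa [map_sub, map_intCast, hcx a ℓ] at this

/-- Modularity of the switched curves. -/
theorem isModularSquarefree (hirr : ResidualIrreducible) (hpl : PlacesExist)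
    (haux : AuxPrimesExist) (hbound : DihedralBound) (hcount : NewSystemCount)
    (hsys : SystemPoints) (hcurve : CurvePoint) (hlim : LimitModular)
    (V : WeierstrassCurve ℤ) (hV : IsTresModel V) : IsModularSquarefree V := by
  obtain ⟨K, _, _, hK⟩ := exists_discField V hV.delta_neg
  obtain ⟨B, hB⟩ := haux V hV
  refine hlim V hV B fun n hn S₀ => ?_
  set C := 2 ^ (padicValNat 2 (NumberField.classNumber K) + B) with hC
  have hC1 : 1 ≤ C := Nat.one_le_two_pow
  have hnN : n ≤ (n + C) * C := (Nat.le_add_right n C).trans (Nat.le_mul_of_pos_right _ hC1)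
  obtain ⟨Q, hQ, hS₀, hcard, hsel⟩ := hB ((n + C) * C) (hn.trans hnN) S₀
  have hQC : rankBound K Q ≤ C :=
    Nat.pow_le_pow_right two_pos (Nat.add_le_add_left hcard _)
  exact ⟨(n + C) * C, Q, hnN, hQ, hS₀, hcard, hasCloseSystem_of_bound hirr hpl hbound hcount hsys
    hcurve V hV K hK _ (hn.trans hnN) Q hQ hsel n (by gcongr)⟩

/-- Residual modularity at `3` at a squarefree level, for curves multiplicative at `2`. -/
theorem residuallyModular_three (hsw : SwitchExists)
    (hmod : ∀ V : WeierstrassCurve ℤ, IsTresModel V → IsModularSquarefree V)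
    (W : WeierstrassCurve ℤ) (hΔ : W.Δ ≠ 0) (hW : W.IsSemistableModel) (h2 : (2 : ℤ) ∣ W.Δ)
    (hirr : W.ModRepIsIrreducible 3) :
    ∃ M : ℕ, 0 < M ∧ Squarefree M ∧ W.IsResiduallyModularOfLevel 3 M ∧
      (W.IsGoodPrimeFor 3 → ¬ 3 ∣ M) := by
  obtain ⟨V, hV, hgood3, hcong⟩ := hsw W hΔ hW h2 hirr
  obtain ⟨M, hM, hsq, hbad, h3, hres⟩ := hmod V hV
  exact ⟨M, hM, hsq, isResiduallyModularOfLevel_of_congr (fun ℓ hℓ _ h => hbad ℓ hℓ h)
    (fun ℓ hℓ h3' hg hg' => hcong ℓ hℓ hg hg' h3') hres, fun h => h3 (hgood3 h)⟩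

end Fermat.Agent.TwoAdic
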