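import Fermat.Agent.TwoAdic.SLImage
import Fermat.Agent.Density.FrobeniusDensity
import Fermat.Agent.Density.PlacesConj
import Mathlib.LinearAlgebra.FiniteDimensional.Lemmas
import Mathlib.GroupTheory.Perm.Basic

/-!
# Killing the Selmer group with Ramakrishna primes

A Ramakrishna prime is one at which inertia dies in `ρ = E'[2ⁿ]` and Frobenius is conjugate to
complex conjugation `c`.  If every member of a Selmer family is, at some transvection of the
image, valued in its fixed line, then each nonzero class has non-fixed value at the Frobenius of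
such a prime; adding the prime drops the dimension.
-/

set_option autoImplicit false

noncomputable section

open Matrix

namespace Fermat.Agent.TwoAdic

local notation "Γℚ" => (AlgebraicClosure ℚ ≃ₐ[ℚ] AlgebraicClosure ℚ)

variable {n : ℕ} (hn : n ≠ 0)

/-- The mod `2` matrix of a group element. -/
def redMat {G : Type*} [Group G] (π : G →* GL (Fin 2) (ZMod (2 ^ n))) (g : G) :
    Matrix (Fin 2) (Fin 2) (ZMod 2) :=
  (redGL hn (π g)).1

section Group

variable {G : Type*} [Group G] (π : G →* GL (Fin 2) (ZMod (2 ^ n)))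

lemma redMat_mul (g h : G) : redMat hn π (g * h) = redMat hn π g * redMat hn π h := by
  simp [redMat]

lemma redMat_one : redMat hn π 1 = 1 := by simp [redMat]

/-- A cocycle for the mod `2` module of `π`. -/
def IsRedCocycle (φ : G → V2) : Prop := ∀ g h, φ (g * h) = φ g + redMat hn π g *ᵥ φ h

/-- The coboundaries. -/
def redCoboundaries : Submodule (ZMod 2) (G → V2) where
  carrier := {φ | ∃ v : V2, ∀ g, φ g = redMat hn π g *ᵥ v - v}
  add_mem' := by
    rintro φ ψ ⟨v, hv⟩ ⟨w, hw⟩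
    exact ⟨v + w, fun g => by rw [Pi.add_apply, hv, hw, Matrix.mulVec_add]; abel⟩
  zero_mem' := ⟨0, fun g => by simp⟩
  smul_mem' := by
    rintro a φ ⟨v, hv⟩
    exact ⟨a • v, fun g => by rw [Pi.smul_apply, hv, Matrix.mulVec_smul, smul_sub]⟩

variable {hn π}

lemma IsRedCocycle.map_one {φ : G → V2} (hφ : IsRedCocycle hn π φ) : φ 1 = 0 := by
  have h := hφ 1 1
  rw [one_mul, redMat_one, Matrix.one_mulVec] at h
  exact left_eq_add.mp h

lemma eq_zero_or_one_zmod2 (x : ZMod 2) : x = 0 ∨ x = 1 := by revert x; decide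

/-- A version of `exists_eq_coboundary_of_transvection` for a conjugate of the transvection. -/
theorem mem_redCoboundaries_of_transvection {φ : G → V2} (hφ : IsRedCocycle hn π φ)
    (hSL : ∀ M : GL (Fin 2) (ZMod (2 ^ n)), M.1.det = 1 → ∃ g, π g = M)
    (hker : ∀ g, π g = 1 → φ g = 0)
    (hT : ∃ g, ∃ γ : GL (Fin 2) (ZMod (2 ^ n)),
      (π g).1 = γ.1 * !![1, 1; 0, 1] * (γ⁻¹).1 ∧ redMat hn π g *ᵥ φ g = φ g) :
    φ ∈ redCoboundaries hn π := by
  obtain ⟨g₀, γ, hg₀, hfix⟩ := hT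
  set π' : G →* GL (Fin 2) (ZMod (2 ^ n)) := (MulAut.conj γ⁻¹).toMonoidHom.comp π
  have hπ' : ∀ g, π' g = γ⁻¹ * π g * γ := fun g => by simp [π']
  set A := (redGL hn γ⁻¹).1
  set B := (redGL hn γ).1
  have hAB : A * B = 1 := by
    rw [← Units.val_mul, ← map_mul, inv_mul_cancel, _root_.map_one, Units.val_one]
  have hBA : B * A = 1 := by
    rw [← Units.val_mul, ← map_mul, mul_inv_cancel, _root_.map_one, Units.val_one]
  have hred : ∀ g, (redGL hn (π' g)).1 = A * redMat hn π g * B := fun g => by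
    rw [hπ', map_mul, map_mul, Units.val_mul, Units.val_mul]; rfl
  obtain ⟨v, hv⟩ := exists_eq_coboundary_of_transvection hn π'
    (fun M hM => by
      obtain ⟨g, hg⟩ := hSL (γ * M * γ⁻¹) (by
        rw [Units.val_mul, Units.val_mul, Matrix.det_mul, Matrix.det_mul, mul_comm (γ.1.det),
          hM, one_mul, ← Matrix.det_mul, ← Units.val_mul, mul_inv_cancel, Units.val_one,
          Matrix.det_one])
      exact ⟨g, by rw [hπ', hg]; group⟩)
    (fun g => A *ᵥ φ g)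
    (fun g h => by
      rw [hred, hφ g h, Matrix.mulVec_add, Matrix.mulVec_mulVec, Matrix.mulVec_mulVec,
        mul_assoc (A * redMat hn π g), hBA, mul_one])
    (fun g hg => by
      have h1 : π g = 1 := by
        rw [hπ', mul_eq_one_iff_eq_inv, mul_eq_left] at hg
        exact hg
      rw [hker g h1, Matrix.mulVec_zero])
    ⟨g₀, by
      rw [hπ', Units.val_mul, Units.val_mul, hg₀]
      simp only [← mul_assoc, Units.inv_mul, one_mul]
      rw [mul_assoc, Units.inv_mul, mul_one], by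
      have h1 : (redGL hn (π' g₀)).1 *ᵥ (A *ᵥ φ g₀) = A *ᵥ φ g₀ := by
        rw [hred, Matrix.mulVec_mulVec, mul_assoc, hBA, mul_one, ← Matrix.mulVec_mulVec, hfix]
      have h2 : (redGL hn (π' g₀)).1 = !![1, 1; 0, 1] := by
        have h3 : (π' g₀).1 = !![1, 1; 0, 1] := by
          rw [hπ', Units.val_mul, Units.val_mul, hg₀]
          simp only [← mul_assoc, Units.inv_mul, one_mul]
          rw [mul_assoc, Units.inv_mul, mul_one]
        ext i j
        fin_cases i <;> fin_cases j <;> simp [coe_redGL, h3]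
      rw [h2] at h1
      have h4 := congrFun h1 0
      simpa [Matrix.mulVec, dotProduct, Fin.sum_univ_two] using h4⟩
  refine ⟨B *ᵥ v, fun g => ?_⟩
  have h := congrArg (fun x => B *ᵥ x) (hv g)
  simp only [Matrix.mulVec_mulVec, Matrix.mulVec_sub, hBA, Matrix.one_mulVec, hred] at h
  rw [h, Matrix.mulVec_mulVec, ← mul_assoc, ← mul_assoc, hBA, one_mul]

/-- A non-coboundary takes, in every coset of the kernel of `π`, a value moved by any given
nontrivial involution. -/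
theorem exists_map_eq_moved {φ : G → V2} (hφ : IsRedCocycle hn π φ)
    (hSL : ∀ M : GL (Fin 2) (ZMod (2 ^ n)), M.1.det = 1 → ∃ g, π g = M)
    (hne : φ ∉ redCoboundaries hn π)
    (hT : ∃ g, ∃ γ : GL (Fin 2) (ZMod (2 ^ n)),
      (π g).1 = γ.1 * !![1, 1; 0, 1] * (γ⁻¹).1 ∧ redMat hn π g *ᵥ φ g = φ g)
    {c : G} (hc : π c * π c = 1) (hc1 : redMat hn π c ≠ 1) :
    ∃ g, π g = π c ∧ redMat hn π c *ᵥ φ g ≠ φ g := by
  by_contra hcon
  push Not at hcon
  set M := redMat hn π c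
  have hM2 : M * M = 1 := by
    rw [← redMat_mul, redMat, map_mul, hc, _root_.map_one, Units.val_one]
  -- all values on the kernel are fixed by `M`
  have hk : ∀ k, π k = 1 → M *ᵥ φ k = φ k := by
    intro k hk
    have h1 := hcon (c * k) (by rw [map_mul, hk, mul_one])
    have h2 := hcon c rfl
    rw [hφ, Matrix.mulVec_add, h2, Matrix.mulVec_mulVec, hM2, Matrix.one_mulVec, add_right_inj]
      at h1
    exact h1.symm
  -- hence by every conjugate
  have hconj : ∀ g k, π k = 1 → M *ᵥ (redMat hn π g *ᵥ φ k) = redMat hn π g *ᵥ φ k := by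
    intro g k hk1
    have hgk : π (g * k * g⁻¹) = 1 := by
      rw [map_mul, map_mul, hk1, mul_one, ← map_mul, mul_inv_cancel, _root_.map_one]
    have h : φ (g * k * g⁻¹) = redMat hn π g *ᵥ φ k := by
      have h0 : φ g + redMat hn π g *ᵥ φ g⁻¹ = 0 := by rw [← hφ, mul_inv_cancel, hφ.map_one]
      have hrk : redMat hn π k = 1 := by rw [redMat, hk1, _root_.map_one, Units.val_one]
      rw [hφ, hφ, redMat_mul, hrk, mul_one, add_right_comm, h0, zero_add]
    rw [← h]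
    exact hk _ hgk
  obtain ⟨gT, hgT⟩ := hSL (mkSL !![1, 1; 0, 1] (upper_det 1)) (by rw [coe_mkSL, upper_det])
  obtain ⟨gS, hgS⟩ := hSL (mkSL !![0, -1; 1, 0] S_det) (by rw [coe_mkSL, S_det])
  have hrT : redMat hn π gT = !![1, 1; 0, 1] := by
    ext i j; fin_cases i <;> fin_cases j <;> simp [redMat, coe_redGL, hgT]
  have hrS : redMat hn π gS = !![0, 1; 1, 0] := by
    have hm : redHom hn (-1) = 1 := by rw [map_neg, _root_.map_one]; rfl
    ext i j; fin_cases i <;> fin_cases j <;> simp [redMat, coe_redGL, hgS, hm]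
  refine hne (mem_redCoboundaries_of_transvection hφ hSL (fun k hk1 => ?_) hT)
  have a1 := hk k hk1
  have a2 := hconj gT k hk1
  have a3 := hconj gS k hk1
  rw [hrT] at a2
  rw [hrS] at a3
  exact fin_moved M (φ k) hc1 a1 a2 a3
where
  fin_moved : ∀ (M : Matrix (Fin 2) (Fin 2) (ZMod 2)) (v : V2), M ≠ 1 → M *ᵥ v = v →
      M *ᵥ (!![1, 1; 0, 1] *ᵥ v) = !![1, 1; 0, 1] *ᵥ v →
      M *ᵥ (!![0, 1; 1, 0] *ᵥ v) = !![0, 1; 1, 0] *ᵥ v → v = 0 := by
    intro M v hM h1 h2 h3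
    rw [Matrix.eta_fin_two M] at hM h1 h2 h3
    rw [Ne, Matrix.one_fin_two, ← Matrix.ext_iff] at hM
    rw [funext_iff] at h1 h2 h3 ⊢
    simp only [Fin.forall_fin_two, Matrix.mulVec, dotProduct, Fin.sum_univ_two] at hM h1 h2 h3 ⊢
    simp at hM h1 h2 h3 ⊢
    revert hM h1 h2 h3
    generalize M 0 0 = a; generalize M 0 1 = b; generalize M 1 0 = d; generalize M 1 1 = e
    generalize v 0 = x; generalize v 1 = y
    revert a b d e x y
    decide

end Group

section Galois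

variable {hn} (ρ : Γℚ →* GL (Fin 2) (ZMod (2 ^ n)))

/-- Factoring through a finite level. -/
def HasFiniteLevel {α : Type*} (f : Γℚ → α) : Prop :=
  ∃ L : IntermediateField ℚ (AlgebraicClosure ℚ), FiniteDimensional ℚ L ∧
    ∀ g s : Γℚ, (∀ x ∈ L, s x = x) → f (g * s) = f g

/-- A prime at which inertia dies and Frobenius is conjugate to `c`. -/
def IsRamakrishna (c : Γℚ) (q : ℕ) : Prop :=
  q.Prime ∧ ∀ A : ValuationSubring (AlgebraicClosure ℚ), A.LiesOverPrime q →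
    (∀ τ ∈ A.inertiaSubgroupIn ℚ, ρ τ = 1) ∧
      ∀ σ : Γℚ, A.IsFrobeniusAt σ q → ∃ a : Γℚ, ρ σ = ρ (a * c * a⁻¹)

/-- The mod `2` action as a permutation. -/
def redPerm (g : Γℚ) : Equiv.Perm V2 where
  toFun v := redMat hn ρ g *ᵥ v
  invFun v := redMat hn ρ g⁻¹ *ᵥ v
  left_inv v := by simp only [Matrix.mulVec_mulVec, ← redMat_mul, inv_mul_cancel, redMat_one,
      Matrix.one_mulVec]
  right_inv v := by simp only [Matrix.mulVec_mulVec, ← redMat_mul, mul_inv_cancel, redMat_one,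
      Matrix.one_mulVec]

lemma redPerm_apply (g : Γℚ) (v : V2) : redPerm (hn := hn) ρ g v = redMat hn ρ g *ᵥ v := rfl

/-- The affine action attached to a cocycle. -/
def affineHom {φ : Γℚ → V2} (hφ : IsRedCocycle hn ρ φ) :
    Γℚ →* GL (Fin 2) (ZMod (2 ^ n)) × Equiv.Perm V2 where
  toFun g := (ρ g, Equiv.addRight (φ g) * redPerm (hn := hn) ρ g)
  map_one' := by
    refine Prod.ext (_root_.map_one ρ) (Equiv.ext fun v => ?_)
    simp [redPerm_apply, hφ.map_one, redMat_one]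
  map_mul' g h := by
    refine Prod.ext (map_mul ρ g h) (Equiv.ext fun v => ?_)
    simp only [Prod.mk_mul_mk, Equiv.Perm.coe_mul, Function.comp_apply, redPerm_apply,
      Equiv.coe_addRight, redMat_mul, hφ g h, Matrix.mulVec_add, ← Matrix.mulVec_mulVec]
    abel

lemma affineHom_apply_zero {φ : Γℚ → V2} (hφ : IsRedCocycle hn ρ φ) (g : Γℚ) :
    (affineHom ρ hφ g).2 0 = φ g := by
  simp [affineHom, redPerm_apply]

variable {ρ}

/-- **A Ramakrishna prime seeing a given class.** -/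
theorem exists_ramakrishna_seeing (hρ : HasFiniteLevel ρ)
    (hSL : ∀ M : GL (Fin 2) (ZMod (2 ^ n)), M.1.det = 1 → ∃ g, ρ g = M)
    {c : Γℚ} (hc : ρ c * ρ c = 1) (hc1 : redMat hn ρ c ≠ 1)
    {φ : Γℚ → V2} (hφ : IsRedCocycle hn ρ φ) (hφfin : HasFiniteLevel φ)
    (hne : φ ∉ redCoboundaries hn ρ)
    (hT : ∃ g, ∃ γ : GL (Fin 2) (ZMod (2 ^ n)),
      (ρ g).1 = γ.1 * !![1, 1; 0, 1] * (γ⁻¹).1 ∧ redMat hn ρ g *ᵥ φ g = φ g)
    (S : Finset ℕ) :
    ∃ q, q ∉ S ∧ IsRamakrishna ρ c q ∧ ∃ (A : ValuationSubring (AlgebraicClosure ℚ)) (σ : Γℚ),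
      A.LiesOverPrime q ∧ A.IsFrobeniusAt σ q ∧ ρ σ = ρ c ∧
      (∀ τ ∈ A.inertiaSubgroupIn ℚ, φ τ = 0) ∧ redMat hn ρ c *ᵥ φ σ ≠ φ σ := by
  obtain ⟨g, hg, hmov⟩ := exists_map_eq_moved hφ hSL hne hT hc hc1
  set Ψ := affineHom ρ hφ
  have hΨ : ∃ L : IntermediateField ℚ (AlgebraicClosure ℚ), FiniteDimensional ℚ L ∧
      ∀ σ : Γℚ, (∀ x ∈ L, σ x = x) → Ψ σ = 1 := by
    obtain ⟨L₁, h₁, e₁⟩ := hρ
    obtain ⟨L₂, h₂, e₂⟩ := hφfin
    refine ⟨L₁ ⊔ L₂, inferInstance, fun σ hσ => ?_⟩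
    have r1 : ρ σ = 1 := by
      have := e₁ 1 σ fun x hx => hσ x (SetLike.le_def.mp le_sup_left hx)
      rwa [one_mul, _root_.map_one] at this
    have r2 : φ σ = 0 := by
      have := e₂ 1 σ fun x hx => hσ x (SetLike.le_def.mp le_sup_right hx)
      rwa [one_mul, hφ.map_one] at this
    refine Prod.ext r1 (Equiv.ext fun v => ?_)
    simp [Ψ, affineHom, redPerm_apply, r2, redMat, r1]
  obtain ⟨q, hq, hqS, A, σ, hA, hσ, hI, a, b, ha, hb⟩ :=
    Density.exists_isFrobeniusAt_map_pow Ψ hΨ g S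
  have hρa : ρ σ = ρ g ^ a := congrArg Prod.fst ha
  have hρb : ρ g = ρ σ ^ b := congrArg Prod.fst hb
  have hg2 : ρ g ^ 2 = 1 := by rw [hg, sq, hc]
  obtain ⟨m, rfl⟩ : Odd a := by
    by_contra h
    obtain ⟨m, rfl⟩ := Nat.not_odd_iff_even.1 h
    have hσ1 : ρ σ = 1 := by rw [hρa, ← two_mul, pow_mul, hg2, one_pow]
    apply hc1
    rw [redMat, ← hg, hρb, hσ1, one_pow, _root_.map_one, Units.val_one]
  have hσc : ρ σ = ρ c := by rw [hρa, pow_succ, pow_mul, hg2, one_pow, one_mul, hg]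
  have hφσ : φ σ = φ (g ^ (2 * m + 1)) := by
    rw [← affineHom_apply_zero ρ hφ, ← affineHom_apply_zero ρ hφ, map_pow]
    exact congrArg (fun z => z.2 0) ha
  have hMg : redMat hn ρ g = redMat hn ρ c := by rw [redMat, hg]; rfl
  have hM2 : redMat hn ρ c * redMat hn ρ c = 1 := by
    rw [← redMat_mul, redMat, map_mul, hc, _root_.map_one, Units.val_one]
  have hsq : redMat hn ρ c *ᵥ φ (g ^ 2) = φ (g ^ 2) := by
    rw [sq, hφ, hMg, Matrix.mulVec_add, Matrix.mulVec_mulVec, hM2, Matrix.one_mulVec, add_comm]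
  have heven : ∀ k, redMat hn ρ c *ᵥ φ ((g ^ 2) ^ k) = φ ((g ^ 2) ^ k) := by
    intro k
    induction k with
    | zero => rw [pow_zero, hφ.map_one, Matrix.mulVec_zero]
    | succ k ih =>
      have h1 : redMat hn ρ ((g ^ 2) ^ k) = 1 := by
        rw [redMat, ← pow_mul, map_pow ρ, pow_mul, hg2, one_pow, _root_.map_one, Units.val_one]
      rw [pow_succ, hφ, h1, Matrix.one_mulVec, Matrix.mulVec_add, ih, hsq]
  have hmove : redMat hn ρ c *ᵥ φ σ ≠ φ σ := by
    intro h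
    apply hmov
    have h1 : redMat hn ρ ((g ^ 2) ^ m) = 1 := by
      rw [redMat, ← pow_mul, map_pow ρ, pow_mul, hg2, one_pow, _root_.map_one, Units.val_one]
    rw [hφσ, pow_succ, pow_mul, hφ, h1, Matrix.one_mulVec, Matrix.mulVec_add, heven] at h
    exact add_left_cancel h
  refine ⟨q, hqS, ⟨hq, fun B hB => ?_⟩, A, σ, hA, hσ, hσc, fun τ hτ => ?_, hmove⟩
  · have hIρ : ∀ τ ∈ A.inertiaSubgroupIn ℚ, ρ τ = 1 := fun τ hτ => congrArg Prod.fst (hI τ hτ)
    refine ⟨fun τ hτ => ?_, fun σ' hσ' => ?_⟩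
    · obtain ⟨e, rfl⟩ := Density.exists_smul_eq hq hA hB
      have h := hIρ _ (Density.conj_inv_mem_inertiaSubgroupIn hτ)
      rw [show τ = e * (e⁻¹ * τ * e) * e⁻¹ by group, map_mul, map_mul, h, mul_one, ← map_mul,
        mul_inv_cancel, _root_.map_one]
    · obtain ⟨⟨e, he⟩, -⟩ := Density.exists_conj_of_isFrobeniusAt ρ hq hA hσ hIρ hB hσ'
      exact ⟨e, by rw [he, map_mul, map_mul, hσc, ← map_mul, ← map_mul]⟩
  · rw [← affineHom_apply_zero ρ hφ τ, hI τ hτ]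
    rfl

/-- **Killing the Selmer group.**  `Sel Q` is the Selmer group with the Ramakrishna conditions at
`Q`; `hdrop` is the reciprocity input. -/
theorem exists_killing_set (hρ : HasFiniteLevel ρ)
    (hSL : ∀ M : GL (Fin 2) (ZMod (2 ^ n)), M.1.det = 1 → ∃ g, ρ g = M)
    {c : Γℚ} (hc : ρ c * ρ c = 1) (hc1 : redMat hn ρ c ≠ 1) (S : Finset ℕ)
    (Sel : Finset ℕ → Submodule (ZMod 2) (Γℚ → V2)) [FiniteDimensional (ZMod 2) (Sel ∅)]
    (hcoc : ∀ (Q : Finset ℕ), ∀ φ ∈ Sel Q, IsRedCocycle hn ρ φ ∧ HasFiniteLevel φ)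
    (hline : ∀ Q : Finset ℕ, (∀ q ∈ Q, q ∉ S ∧ IsRamakrishna ρ c q) → ∀ φ ∈ Sel Q,
      ∃ g, ∃ γ : GL (Fin 2) (ZMod (2 ^ n)),
        (ρ g).1 = γ.1 * !![1, 1; 0, 1] * (γ⁻¹).1 ∧ redMat hn ρ g *ᵥ φ g = φ g)
    (hdrop : ∀ (Q : Finset ℕ) (q : ℕ), (∀ l ∈ Q, l ∉ S ∧ IsRamakrishna ρ c l) → q ∉ S → q ∉ Q →
      IsRamakrishna ρ c q → ∀ (A : ValuationSubring (AlgebraicClosure ℚ)) (σ : Γℚ),
      A.LiesOverPrime q → A.IsFrobeniusAt σ q → ρ σ = ρ c →
      (∃ φ ∈ Sel Q, (∀ τ ∈ A.inertiaSubgroupIn ℚ, φ τ = 0) ∧ redMat hn ρ c *ᵥ φ σ ≠ φ σ) →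
      ∀ ψ ∈ Sel (insert q Q), ψ ∈ Sel Q ∧ redMat hn ρ c *ᵥ ψ σ = ψ σ) :
    ∃ Q : Finset ℕ, Q.card ≤ Module.finrank (ZMod 2) (Sel ∅) ∧
      (∀ q ∈ Q, q ∉ S ∧ IsRamakrishna ρ c q) ∧ Sel Q ≤ redCoboundaries hn ρ := by
  classical
  suffices h : ∀ (m : ℕ) (Q : Finset ℕ), (∀ q ∈ Q, q ∉ S ∧ IsRamakrishna ρ c q) →
      Sel Q ≤ Sel ∅ → Module.finrank (ZMod 2) (Sel Q) ≤ m →
      Q.card + m ≤ Module.finrank (ZMod 2) (Sel ∅) →
      ∃ Q' : Finset ℕ, Q'.card ≤ Module.finrank (ZMod 2) (Sel ∅) ∧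
        (∀ q ∈ Q', q ∉ S ∧ IsRamakrishna ρ c q) ∧ Sel Q' ≤ redCoboundaries hn ρ from
    h _ ∅ (by simp) le_rfl le_rfl (by simp)
  intro m
  induction m with
  | zero =>
    intro Q hQ hle hm hcard
    have : FiniteDimensional (ZMod 2) (Sel Q) := Submodule.finiteDimensional_of_le hle
    refine ⟨Q, by omega, hQ, ?_⟩
    rw [Submodule.finrank_eq_zero.1 (Nat.le_zero.1 hm)]
    exact bot_le
  | succ m ih =>
    intro Q hQ hle hm hcard
    by_cases hk : Sel Q ≤ redCoboundaries hn ρ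
    · exact ⟨Q, by omega, hQ, hk⟩
    obtain ⟨φ, hφQ, hφne⟩ := Set.not_subset.1 hk
    obtain ⟨q, hqS, hram, A, σ, hA, hσ, hσc, hI, hmove⟩ := exists_ramakrishna_seeing hρ hSL hc hc1
      (hcoc Q φ hφQ).1 (hcoc Q φ hφQ).2 hφne (hline Q hQ φ hφQ) (S ∪ Q)
    rw [Finset.mem_union, not_or] at hqS
    have hd := hdrop Q q hQ hqS.1 hqS.2 hram A σ hA hσ hσc ⟨φ, hφQ, hI, hmove⟩
    have hle' : Sel (insert q Q) ≤ Sel Q := fun ψ hψ => (hd ψ hψ).1
    have : FiniteDimensional (ZMod 2) (Sel Q) := Submodule.finiteDimensional_of_le hle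
    have hlt : Sel (insert q Q) < Sel Q :=
      lt_of_le_of_ne hle' fun he => hmove (hd φ (he ▸ hφQ)).2
    have := Submodule.finrank_lt_finrank_of_lt hlt
    refine ih (insert q Q) (fun l hl => ?_) (hle'.trans hle) (by omega)
      (by rw [Finset.card_insert_of_notMem hqS.2]; omega)
    rcases Finset.mem_insert.1 hl with rfl | hl
    · exact ⟨hqS.1, hram⟩
    · exact hQ l hl

end Galois

end Fermat.Agent.TwoAdic
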