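import Mathlib.NumberTheory.Padics.RingHoms
import Mathlib.LinearAlgebra.Matrix.NonsingularInverse
import Fermat.Prelude.Thm_IsLocalRing_isAdicComplete_of_module_finite

/-!
# The subring of a `p`-adic ring with residues in the prime field

Points of a deformation ring with residue field `F_p` land in
`O₁ = {x ∈ O : x mod 𝔪 ∈ F_p}`; a representation over `O` whose reduction is conjugate to one
over `F_p` has a conjugate over `O₁`.
-/

set_option autoImplicit false

noncomputable section

open IsLocalRing

namespace Fermat.Agent.TwoAdic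

variable (p : ℕ) [Fact p.Prime] (O : Type*) [CommRing O] [IsLocalRing O] [Algebra ℤ_[p] O]
  [IsLocalHom (algebraMap ℤ_[p] O)]

theorem algebraMap_sub_intCast_mem (z : ℤ_[p]) :
    ∃ n : ℤ, algebraMap ℤ_[p] O z - (n : O) ∈ maximalIdeal O := by
  refine ⟨(PadicInt.zmodRepr z : ℤ), ?_⟩
  have h := (PadicInt.zmodRepr_spec z).2
  have := map_nonunit (algebraMap ℤ_[p] O) (z - (PadicInt.zmodRepr z : ℤ_[p])) (by
    rw [IsLocalRing.mem_maximalIdeal] at h
    exact h)
  simpa using this

/-- Elements of `O` with residue in the prime field. -/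
def residueSubring : Subalgebra ℤ_[p] O where
  carrier := {x | ∃ n : ℤ, x - (n : O) ∈ maximalIdeal O}
  mul_mem' := by
    rintro x y ⟨m, hm⟩ ⟨n, hn⟩
    refine ⟨m * n, ?_⟩
    rw [show x * y - ((m * n : ℤ) : O) = x * (y - (n : O)) + (n : O) * (x - (m : O)) by push_cast; ring]
    exact Ideal.add_mem _ (Ideal.mul_mem_left _ _ hn) (Ideal.mul_mem_left _ _ hm)
  add_mem' := by
    rintro x y ⟨m, hm⟩ ⟨n, hn⟩
    refine ⟨m + n, ?_⟩
    rw [show x + y - ((m + n : ℤ) : O) = (x - (m : O)) + (y - (n : O)) by push_cast; ring]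
    exact Ideal.add_mem _ hm hn
  algebraMap_mem' := algebraMap_sub_intCast_mem p O

theorem mem_residueSubring {x : O} :
    x ∈ residueSubring p O ↔ ∃ n : ℤ, x - (n : O) ∈ maximalIdeal O := Iff.rfl

theorem mem_residueSubring_of_mem_maximalIdeal {x : O} (hx : x ∈ maximalIdeal O) :
    x ∈ residueSubring p O := ⟨0, by simpa using hx⟩

theorem isUnit_residueSubring_iff (x : residueSubring p O) : IsUnit x ↔ IsUnit (x : O) := by
  refine ⟨fun h => h.map (residueSubring p O).val, fun h => ?_⟩
  obtain ⟨n, hn⟩ := x.2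
  have hnu : ¬ ((p : ℤ) ∣ n) := by
    rintro ⟨k, rfl⟩
    refine (mem_nonunits_iff.mp ((IsLocalRing.mem_maximalIdeal _).mp ?_)) h
    have hp : (p : O) ∈ maximalIdeal O := by
      have := map_nonunit (algebraMap ℤ_[p] O) (p : ℤ_[p]) PadicInt.p_nonunit
      simpa using this
    have := Ideal.add_mem _ hn (Ideal.mul_mem_right (k : O) _ hp)
    push_cast at this
    simpa using this
  have hcop : IsCoprime n (p : ℤ) := (Nat.prime_iff_prime_int.mp Fact.out).coprime_iff_not_dvd.mpr hnu
    |>.symm
  obtain ⟨a, b, hab⟩ := hcop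
  have hp : (p : O) ∈ maximalIdeal O := by
    have := map_nonunit (algebraMap ℤ_[p] O) (p : ℤ_[p]) PadicInt.p_nonunit
    simpa using this
  have hinv : ((h.unit⁻¹ : Oˣ) : O) ∈ residueSubring p O := by
    refine ⟨a, ?_⟩
    have e : ((h.unit⁻¹ : Oˣ) : O) - (a : O) = ((h.unit⁻¹ : Oˣ) : O) * (b : O) * (p : O)
        - ((h.unit⁻¹ : Oˣ) : O) * (a : O) * ((x : O) - (n : O)) := by
      have h1 : ((a : O) * n + (b : O) * p) = 1 := by exact_mod_cast congrArg (fun z : ℤ => (z : O)) hab
      have h2 : ((h.unit⁻¹ : Oˣ) : O) * (x : O) = 1 := h.val_inv_mul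
      linear_combination (-((h.unit⁻¹ : Oˣ) : O)) * h1 + (a : O) * h2
    rw [e]
    exact Ideal.sub_mem _ (Ideal.mul_mem_left _ _ hp) (Ideal.mul_mem_left _ _ hn)
  exact IsUnit.of_mul_eq_one ⟨_, hinv⟩ (Subtype.ext h.mul_val_inv)

instance instIsLocalRing_residueSubring : IsLocalRing (residueSubring p O) :=
  IsLocalRing.of_isUnit_or_isUnit_one_sub_self fun x => by
    rw [isUnit_residueSubring_iff, isUnit_residueSubring_iff]
    exact IsLocalRing.isUnit_or_isUnit_one_sub_self (x : O)

instance instIsLocalHom_val : IsLocalHom (residueSubring p O).val :=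
  ⟨fun x hx => (isUnit_residueSubring_iff p O x).mpr hx⟩

instance instIsLocalHom_algebraMap : IsLocalHom (algebraMap ℤ_[p] (residueSubring p O)) :=
  ⟨fun z hz => (isUnit_map_iff (algebraMap ℤ_[p] O) z).mp (hz.map (residueSubring p O).val)⟩

theorem mem_maximalIdeal_residueSubring {x : residueSubring p O} :
    x ∈ maximalIdeal (residueSubring p O) ↔ (x : O) ∈ maximalIdeal O := by
  simp only [IsLocalRing.mem_maximalIdeal, mem_nonunits_iff, isUnit_residueSubring_iff]

/-- The residue field of the subring is the prime field. -/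
theorem residue_residueSubring_eq_intCast (x : ResidueField (residueSubring p O)) :
    ∃ n : ℤ, x = n := by
  obtain ⟨y, rfl⟩ := residue_surjective x
  obtain ⟨n, hn⟩ := y.2
  refine ⟨n, ?_⟩
  rw [← map_intCast (residue (residueSubring p O)), ← sub_eq_zero, ← map_sub,
    residue_eq_zero_iff, mem_maximalIdeal_residueSubring]
  simpa using hn

/-- A matrix representation whose reduction is conjugate to one with entries in the prime field is
conjugate to one with entries in the subring reducing to it. -/
theorem exists_conj_residueSubring {G : Type*} [Monoid G] {ι : Type*} [Fintype ι] [DecidableEq ι]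
    (R : G →* Matrix ι ι O) (r : G →* Matrix ι ι (ZMod p)) (j : ZMod p →+* ResidueField O)
    (P : Matrix ι ι (ResidueField O)) (hP : IsUnit P.det)
    (hres : ∀ g, (R g).map (residue O) * P = P * (r g).map j) :
    ∃ (U : (Matrix ι ι O)ˣ) (R₁ : G →* Matrix ι ι (residueSubring p O)),
      (∀ g, (R₁ g).map (residueSubring p O).val = (U⁻¹ : (Matrix ι ι O)ˣ) * R g * U) ∧
      ∀ g i k, residue O ((R₁ g i k : residueSubring p O) : O) = j (r g i k) := by
  let P₀ : Matrix ι ι O := Matrix.of fun i k => (residue_surjective (P i k)).choose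
  have hP₀ : P₀.map (residue O) = P :=
    Matrix.ext fun i k => (residue_surjective (P i k)).choose_spec
  have hdet : IsUnit P₀.det := by
    refine (isUnit_map_iff (residue O) _).mp ?_
    rwa [RingHom.map_det, RingHom.mapMatrix_apply, hP₀]
  let U : (Matrix ι ι O)ˣ := ((Matrix.isUnit_iff_isUnit_det P₀).mpr hdet).unit
  let C : G →* Matrix ι ι O :=
    { toFun := fun g => (U⁻¹ : (Matrix ι ι O)ˣ) * R g * U
      map_one' := by simp
      map_mul' := fun a b => by simp [mul_assoc] }
  have hU : ((U : Matrix ι ι O)).map (residue O) = P := hP₀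
  have hC : ∀ g, (C g).map (residue O) = (r g).map j := by
    intro g
    have hinv : ((U⁻¹ : (Matrix ι ι O)ˣ) : Matrix ι ι O).map (residue O) * P = 1 := by
      rw [← hU, ← Matrix.map_mul, U.inv_mul, Matrix.map_one _ (map_zero _) (map_one _)]
    show ((U⁻¹ : (Matrix ι ι O)ˣ) * R g * U : Matrix ι ι O).map (residue O) = _
    rw [Matrix.map_mul, Matrix.map_mul, hU, Matrix.mul_assoc, hres, ← Matrix.mul_assoc, hinv,
      Matrix.one_mul]
  have hmem : ∀ g i k, C g i k ∈ residueSubring p O := by
    intro g i k
    refine ⟨((r g i k).val : ℤ), ?_⟩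
    rw [← residue_eq_zero_iff, map_sub, sub_eq_zero, map_intCast, Int.cast_natCast]
    have := congrFun (congrFun (hC g) i) k
    simp only [Matrix.map_apply] at this
    rw [this, ← map_natCast j, ZMod.natCast_zmod_val]
  let R₁ : G →* Matrix ι ι (residueSubring p O) :=
    { toFun := fun g => Matrix.of fun i k => ⟨C g i k, hmem g i k⟩
      map_one' := by
        ext i k
        show C 1 i k = _
        rw [map_one, Matrix.one_apply, Matrix.one_apply]
        split <;> rfl
      map_mul' := fun a b => by
        ext i k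
        show C (a * b) i k = _
        rw [map_mul, Matrix.mul_apply, Matrix.mul_apply]
        simp }
  exact ⟨U, R₁, fun g => rfl, fun g i k => congrFun (congrFun (hC g) i) k⟩

variable [Module.Finite ℤ_[p] O]

instance instModuleFinite_residueSubring : Module.Finite ℤ_[p] (residueSubring p O) :=
  Module.Finite.iff_fg.mpr (IsNoetherian.noetherian (residueSubring p O).toSubmodule)

instance instIsNoetherianRing_residueSubring : IsNoetherianRing (residueSubring p O) :=
  IsNoetherianRing.of_finite ℤ_[p] _

instance instIsAdicComplete_residueSubring :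
    IsAdicComplete (maximalIdeal (residueSubring p O)) (residueSubring p O) :=
  IsLocalRing.isAdicComplete_of_module_finite (𝒪 := ℤ_[p])

end Fermat.Agent.TwoAdic
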