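import Mathlib.NumberTheory.Padics.RingHoms
import Mathlib.RingTheory.AdicCompletion.Functoriality
import Mathlib.RingTheory.Filtration
import Mathlib.LinearAlgebra.LinearIndependent.Basic
import Mathlib.LinearAlgebra.Matrix.ToLinearEquiv
import Fermat.Prelude.Thm_IsAdicComplete_of_module_finite

/-!
# A ring with as many points as residual generators is cut out by its points

A local `ℤ_p`-algebra whose reduction modulo `p` is spanned by `B` elements and which has `B`
distinct points in a domain is free of rank `B` and embeds in the product of its points.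
-/

set_option autoImplicit false

noncomputable section

open IsLocalRing

namespace Fermat.Agent.TwoAdic

section Generators

variable {p : ℕ} [Fact p.Prime] {R : Type*} [CommRing R] [IsLocalRing R] [IsNoetherianRing R]
  [Algebra ℤ_[p] R]

/-- Nakayama for a local ring that is only assumed Noetherian: residual generators generate. -/
theorem surjective_of_residual_generators (hp : (p : R) ∈ maximalIdeal R) {β : Type*} [Fintype β]
    (b : β → R) (hb : ∀ x : R, ∃ c : β → ℤ_[p], x - ∑ i, c i • b i ∈ Ideal.span {(p : R)}) :
    Function.Surjective (fun c : β → ℤ_[p] => ∑ i, c i • b i) := by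
  let I : Ideal ℤ_[p] := maximalIdeal ℤ_[p]
  let f : (β → ℤ_[p]) →ₗ[ℤ_[p]] R := Fintype.linearCombination ℤ_[p] b
  have hmap : ∀ k : ℕ, ∀ x ∈ (I ^ k • ⊤ : Submodule ℤ_[p] R), x ∈ maximalIdeal R ^ k := by
    intro k x hx
    refine Submodule.smul_induction_on hx (fun a ha r _ => ?_) (fun u v hu hv => Ideal.add_mem _ hu hv)
    rw [show I = Ideal.span {(p : ℤ_[p])} from PadicInt.maximalIdeal_eq_span_p,
      Ideal.span_singleton_pow, Ideal.mem_span_singleton] at ha
    obtain ⟨a', rfl⟩ := ha
    rw [Algebra.smul_def, map_mul, map_pow, map_natCast, mul_assoc]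
    exact Ideal.mul_mem_right _ _ (Ideal.pow_mem_pow hp k)
  have : IsHausdorff I R := ⟨fun x hx => by
    have hbot := Ideal.iInf_pow_smul_eq_bot_of_isLocalRing (M := R) (maximalIdeal R)
      (Ideal.IsMaximal.ne_top inferInstance)
    have hmem : x ∈ ⨅ k : ℕ, maximalIdeal R ^ k • (⊤ : Submodule R R) :=
      (Submodule.mem_iInf _).mpr fun k => by
        simpa [smul_eq_mul, Ideal.mul_top] using hmap k x (SModEq.zero.mp (hx k))
    rwa [hbot, Submodule.mem_bot] at hmem⟩
  have : IsAdicComplete I (β → ℤ_[p]) := IsAdicComplete.of_module_finite I (β → ℤ_[p])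
  refine surjective_of_mkQ_comp_surjective (I := I) (f := f) fun y => ?_
  obtain ⟨x, rfl⟩ := Submodule.mkQ_surjective _ y
  obtain ⟨c, hc⟩ := hb x
  refine ⟨c, ((Submodule.Quotient.eq _).mpr ?_).symm⟩
  obtain ⟨r, hr⟩ := Ideal.mem_span_singleton.mp hc
  rw [show x - f c = (p : R) * r from hr, ← map_natCast (algebraMap ℤ_[p] R), ← Algebra.smul_def]
  exact Submodule.smul_mem_smul
    (show (p : ℤ_[p]) ∈ I by
      rw [show I = Ideal.span {(p : ℤ_[p])} from PadicInt.maximalIdeal_eq_span_p]
      exact Ideal.mem_span_singleton_self _) Submodule.mem_top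

end Generators

section Points

variable {A R O : Type*} [CommRing A] [CommRing R] [Algebra A R] [CommRing O] [IsDomain O]
  [Algebra A O]

/-- Distinct points are independent on any family spanning the ring. -/
theorem linearIndependent_points {β ι : Type*} [Fintype β] (b : β → R)
    (hspan : Function.Surjective (fun c : β → A => ∑ i, c i • b i))
    (χ : ι → (R →ₐ[A] O)) (hχ : Function.Injective χ) :
    LinearIndependent O (fun j => fun i => χ j (b i)) := by
  have hind : LinearIndependent O (fun j => (χ j : R → O)) := by
    refine (linearIndependent_monoidHom R O).comp (fun j => (χ j : R →* O)) fun j j' h => ?_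
    exact hχ (AlgHom.ext fun x => DFunLike.congr_fun h x)
  rw [linearIndependent_iff'] at hind ⊢
  intro s g hg
  refine hind s g (funext fun x => ?_)
  obtain ⟨c, rfl⟩ := hspan x
  have h0 : ∀ i, ∑ j ∈ s, g j * χ j (b i) = 0 := fun i => by
    simpa using congrFun hg i
  simp only [Finset.sum_apply, Pi.smul_apply, smul_eq_mul, map_sum, map_smul, Pi.zero_apply,
    Finset.mul_sum]
  rw [Finset.sum_comm]
  refine Finset.sum_eq_zero fun i _ => ?_
  calc ∑ j ∈ s, g j * (c i • χ j (b i)) = c i • ∑ j ∈ s, g j * χ j (b i) := by
        simp [Finset.smul_sum]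
    _ = 0 := by rw [h0, smul_zero]

/-- The number of distinct points is at most the number of generators. -/
theorem card_points_le {β ι : Type*} [Fintype β] [Fintype ι] (b : β → R)
    (hspan : Function.Surjective (fun c : β → A => ∑ i, c i • b i))
    (χ : ι → (R →ₐ[A] O)) (hχ : Function.Injective χ) : Fintype.card ι ≤ Fintype.card β := by
  simpa using (linearIndependent_points b hspan χ hχ).fintype_card_le_finrank

/-- With as many points as generators the ring embeds in the product of its points, and the
generators are a basis. -/
theorem injective_of_card_points {β ι : Type*} [Fintype β] [Fintype ι]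
    (hAO : Function.Injective (algebraMap A O)) (b : β → R)
    (hspan : Function.Surjective (fun c : β → A => ∑ i, c i • b i))
    (χ : ι → (R →ₐ[A] O)) (hχ : Function.Injective χ)
    (hcard : Fintype.card β ≤ Fintype.card ι) :
    LinearIndependent A b ∧ Function.Injective (fun x : R => fun j => χ j x) := by
  classical
  have hlin := linearIndependent_points b hspan χ hχ
  obtain ⟨e⟩ := Fintype.card_eq.mp (le_antisymm hcard (card_points_le b hspan χ hχ))
  let M : Matrix β β O := Matrix.of fun r i => χ (e r) (b i)
  have hrow : LinearIndependent O M.row := hlin.comp e e.injective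
  have hdet : M.det ≠ 0 := by
    intro h0
    obtain ⟨v, hv, hv0⟩ := Matrix.exists_vecMul_eq_zero_iff.mpr h0
    refine hv (funext fun r => ?_)
    refine (Fintype.linearIndependent_iff.mp hrow v ?_) r
    funext i
    simpa [Matrix.vecMul, dotProduct, Matrix.row] using congrFun hv0 i
  have hzero : ∀ c : β → A, (∀ j, χ j (∑ i, c i • b i) = 0) → c = 0 := by
    intro c hc
    have hmv : M.mulVec (fun i => algebraMap A O (c i)) = 0 := by
      funext r
      have := hc (e r)
      rw [map_sum] at this
      simpa [M, Matrix.mulVec, dotProduct, Algebra.smul_def, mul_comm] using this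
    have hc0 : (fun i => algebraMap A O (c i)) = 0 := by
      by_contra hne
      exact hdet (Matrix.exists_mulVec_eq_zero_iff.mp ⟨_, hne, hmv⟩)
    exact funext fun i => hAO (by simpa using congrFun hc0 i)
  refine ⟨Fintype.linearIndependent_iff.mpr fun c hc => congrFun (hzero c fun j => by rw [hc, map_zero]),
    fun x y h => ?_⟩
  obtain ⟨c, hc⟩ := hspan (x - y)
  have := hzero c fun j => by
    rw [show ∑ i, c i • b i = x - y from hc, map_sub, sub_eq_zero]
    exact congrFun h j
  rw [this] at hc
  exact sub_eq_zero.mp (hc.symm.trans (by simp))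

end Points

end Fermat.Agent.TwoAdic
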