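import Mathlib.LinearAlgebra.Matrix.GeneralLinearGroup.Defs
import Mathlib.LinearAlgebra.Matrix.Notation
import Mathlib.Data.ZMod.Basic
import Mathlib.Data.Fintype.Pi
import Mathlib.Tactic.LinearCombination

/-!
# Cocycles inflated from an image containing `SL₂(ℤ/2ⁿ)`

A cocycle with values in the natural mod `2` representation which factors through a subgroup of
`GL₂(ℤ/2ⁿ)` containing `SL₂` is a coboundary as soon as its value at a transvection lies in the
fixed line of that transvection.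
-/

set_option autoImplicit false

noncomputable section

open Matrix

namespace Fermat.Agent.TwoAdic

/-- The natural mod `2` module. -/
abbrev V2 : Type := Fin 2 → ZMod 2

variable {n : ℕ} (hn : n ≠ 0)

/-- Reduction `ℤ/2ⁿ → ℤ/2`. -/
def redHom : ZMod (2 ^ n) →+* ZMod 2 := ZMod.castHom (dvd_pow_self 2 hn) (ZMod 2)

/-- Reduction `GL₂(ℤ/2ⁿ) → GL₂(ℤ/2)`. -/
def redGL : GL (Fin 2) (ZMod (2 ^ n)) →* GL (Fin 2) (ZMod 2) :=
  Matrix.GeneralLinearGroup.map (redHom hn)

lemma coe_redGL (g : GL (Fin 2) (ZMod (2 ^ n))) : (redGL hn g).1 = g.1.map (redHom hn) := rfl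

lemma isUnit_iff_red_ne_zero (x : ZMod (2 ^ n)) : IsUnit x ↔ redHom hn x ≠ 0 := by
  have : NeZero (2 ^ n) := ⟨pow_ne_zero n two_ne_zero⟩
  constructor
  · exact fun h => (h.map (redHom hn)).ne_zero
  · intro h
    rw [← ZMod.natCast_zmod_val x, map_natCast, ne_eq, ZMod.natCast_eq_zero_iff] at h
    rw [← ZMod.natCast_zmod_val x, ZMod.isUnit_iff_coprime]
    exact Nat.Coprime.pow_right n (Nat.Coprime.symm ((Nat.prime_two.coprime_iff_not_dvd).2 h))

/-- An element of `GL₂` given by a matrix of determinant one. -/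
def mkSL (M : Matrix (Fin 2) (Fin 2) (ZMod (2 ^ n))) (hM : M.det = 1) :
    GL (Fin 2) (ZMod (2 ^ n)) :=
  ⟨M, M.adjugate, by rw [Matrix.mul_adjugate, hM, one_smul],
    by rw [Matrix.adjugate_mul, hM, one_smul]⟩

@[simp] lemma coe_mkSL (M : Matrix (Fin 2) (Fin 2) (ZMod (2 ^ n))) (hM : M.det = 1) :
    (mkSL M hM).1 = M := rfl

lemma upper_det (x : ZMod (2 ^ n)) : (!![1, x; 0, 1] : Matrix (Fin 2) (Fin 2) _).det = 1 := by
  simp [Matrix.det_fin_two]

lemma lower_det (x : ZMod (2 ^ n)) : (!![1, 0; x, 1] : Matrix (Fin 2) (Fin 2) _).det = 1 := by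
  simp [Matrix.det_fin_two]

lemma S_det : (!![0, -1; 1, 0] : Matrix (Fin 2) (Fin 2) (ZMod (2 ^ n))).det = 1 := by
  simp [Matrix.det_fin_two]

include hn in
/-- A subgroup containing `T` and `S` contains all matrices of determinant one. -/
lemma mem_of_det_eq_one (H : Subgroup (GL (Fin 2) (ZMod (2 ^ n))))
    (hT : mkSL !![1, 1; 0, 1] (upper_det 1) ∈ H) (hS : mkSL !![0, -1; 1, 0] S_det ∈ H)
    (g : GL (Fin 2) (ZMod (2 ^ n))) (hg : g.1.det = 1) : g ∈ H := by
  have : NeZero (2 ^ n) := ⟨pow_ne_zero n two_ne_zero⟩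
  have hU : ∀ x : ZMod (2 ^ n), mkSL !![1, x; 0, 1] (upper_det x) ∈ H := by
    suffices h : ∀ k : ℕ, mkSL !![1, (k : ZMod (2 ^ n)); 0, 1] (upper_det _) ∈ H from fun x => by
      simpa using h x.val
    intro k
    induction k with
    | zero =>
      convert! H.one_mem using 1
      ext i j
      fin_cases i <;> fin_cases j <;> simp
    | succ k ih =>
      convert! H.mul_mem ih hT using 1
      ext i j
      fin_cases i <;> fin_cases j <;> simp [Matrix.mul_apply, Fin.sum_univ_two, add_comm]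
  have hL : ∀ x : ZMod (2 ^ n), mkSL !![1, 0; x, 1] (lower_det x) ∈ H := by
    intro x
    convert! H.mul_mem (H.mul_mem hS (hU (-x))) (H.inv_mem hS) using 1
    rw [eq_mul_inv_iff_mul_eq]
    ext i j
    fin_cases i <;> fin_cases j <;> simp [Matrix.mul_apply, Fin.sum_univ_two]
  -- the case of a unit lower left entry
  have key : ∀ g : GL (Fin 2) (ZMod (2 ^ n)), g.1.det = 1 → IsUnit (g.1 1 0) → g ∈ H := by
    intro g hg hc
    obtain ⟨c, hc⟩ := hc
    rw [Matrix.det_fin_two] at hg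
    have hci : (c : ZMod (2 ^ n)) * ↑c⁻¹ = 1 := c.mul_inv
    convert! H.mul_mem (H.mul_mem (hU ((g.1 0 0 - 1) * ↑c⁻¹)) (hL c))
      (hU ((g.1 1 1 - 1) * ↑c⁻¹)) using 1
    rw [← hc] at hg
    ext i j
    fin_cases i <;> fin_cases j <;> simp [Matrix.mul_apply, Fin.sum_univ_two, ← hc]
    all_goals grobner
  by_cases hc : IsUnit (g.1 1 0)
  · exact key g hg hc
  · have hc0 : redHom hn (g.1 1 0) = 0 := by
      by_contra h
      exact hc ((isUnit_iff_red_ne_zero hn _).2 h)
    have ha : redHom hn (g.1 0 0) ≠ 0 := by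
      intro h
      have := congrArg (redHom hn) hg
      rw [Matrix.det_fin_two, map_sub, map_mul, map_mul, h, hc0, map_one] at this
      simp at this
    have h' := key (mkSL !![1, 0; 1, 1] (lower_det 1) * g) (by rw [Units.val_mul, Matrix.det_mul, hg, mul_one, coe_mkSL, lower_det])
      ((isUnit_iff_red_ne_zero hn _).2 (by
        simp [Matrix.mul_apply, Fin.sum_univ_two, hc0, ha]))
    have := H.mul_mem (H.inv_mem (hL 1)) h'
    rwa [inv_mul_cancel_left] at this

lemma fin_fixU : ∀ v : V2, !![1, 1; 1, 0] *ᵥ v = v → v = 0 := by decide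

lemma fin_cobU : ∀ w : V2, ∃ v : V2, w + (!![1, 1; 1, 0] *ᵥ v - v) = 0 := by decide

lemma fin_relS : ∀ v w : V2, v + !![0, 1; 1, 0] *ᵥ v = 0 → w 1 = 0 →
    v + !![0, 1; 1, 0] *ᵥ w = 0 → v = 0 ∧ w = 0 := by
  intro v w h1 h2 h3
  have h1' := congrFun h1 1
  have h30 := congrFun h3 0
  have h31 := congrFun h3 1
  revert h1' h30 h31 h2
  simp only [funext_iff, Fin.forall_fin_two]
  simp [Matrix.mulVec, dotProduct, Fin.sum_univ_two]
  generalize v 0 = a; generalize v 1 = b; generalize w 0 = c; generalize w 1 = d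
  revert a b c d
  decide

lemma fin_lineT : ∀ v w : V2, w 1 = 0 → (w + (!![1, 1; 0, 1] *ᵥ v - v)) 1 = 0 := by decide

lemma fin_fixTS : ∀ v : V2, !![1, 1; 0, 1] *ᵥ v = v → !![0, 1; 1, 0] *ᵥ v = v → v = 0 := by decide

include hn in
/-- **Inflated classes die.** -/
theorem exists_eq_coboundary_of_transvection {G : Type*} [Group G]
    (π : G →* GL (Fin 2) (ZMod (2 ^ n)))
    (hSL : ∀ M : GL (Fin 2) (ZMod (2 ^ n)), M.1.det = 1 → ∃ g, π g = M)
    (φ : G → V2) (hφ : ∀ g h, φ (g * h) = φ g + (redGL hn (π g)).1 *ᵥ φ h)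
    (hker : ∀ g, π g = 1 → φ g = 0)
    (hT : ∃ g, (π g).1 = !![1, 1; 0, 1] ∧ φ g 1 = 0) :
    ∃ v : V2, ∀ g, φ g = (redGL hn (π g)).1 *ᵥ v - v := by
  classical
  have hfixU := fin_fixU
  have hcobU := fin_cobU
  have hS := fin_relS
  have hT' := fin_lineT
  have hfix := fin_fixTS
  obtain ⟨gT, hgT, hφT⟩ := hT
  obtain ⟨gS, hgS⟩ := hSL (mkSL !![0, -1; 1, 0] S_det) (by rw [coe_mkSL, S_det])
  obtain ⟨gU, hgU⟩ := hSL (mkSL !![-1, -1; 1, 0] (by simp [Matrix.det_fin_two]))
    (by simp [Matrix.det_fin_two])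
  obtain ⟨gm, hgm⟩ := hSL (mkSL !![-1, 0; 0, -1] (by simp [Matrix.det_fin_two]))
    (by simp [Matrix.det_fin_two])
  replace hgS : (π gS).1 = !![0, -1; 1, 0] := by rw [hgS, coe_mkSL]
  replace hgU : (π gU).1 = !![-1, -1; 1, 0] := by rw [hgU, coe_mkSL]
  replace hgm : (π gm).1 = !![-1, 0; 0, -1] := by rw [hgm, coe_mkSL]
  set M : G → Matrix (Fin 2) (Fin 2) (ZMod 2) := fun g => (redGL hn (π g)).1
  have hM1 : redHom hn (-1) = 1 := by rw [map_neg, map_one]; rfl
  have hMT : M gT = !![1, 1; 0, 1] := by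
    ext i j; fin_cases i <;> fin_cases j <;> simp [M, coe_redGL, hgT]
  have hMS : M gS = !![0, 1; 1, 0] := by
    ext i j; fin_cases i <;> fin_cases j <;> simp [M, coe_redGL, hgS, hM1]
  have hMU : M gU = !![1, 1; 1, 0] := by
    ext i j; fin_cases i <;> fin_cases j <;> simp [M, coe_redGL, hgU, hM1]
  have hMm : M gm = 1 := by
    ext i j; fin_cases i <;> fin_cases j <;> simp [M, coe_redGL, hgm, hM1]
  -- normalise at the element of order three
  obtain ⟨v₀, hv₀⟩ := hcobU (φ gU)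
  set ψ : G → V2 := fun g => φ g + (M g *ᵥ v₀ - v₀) with hψdef
  have hMmul : ∀ g h, M (g * h) = M g * M h := fun g h => by simp [M]
  have hψ : ∀ g h, ψ (g * h) = ψ g + M g *ᵥ ψ h := by
    intro g h
    simp only [hψdef, hMmul]
    rw [hφ g h, Matrix.mulVec_add, Matrix.mulVec_sub, Matrix.mulVec_mulVec]
    abel
  have hψker : ∀ g, π g = 1 → ψ g = 0 := fun g hg => by
    simp [hψdef, M, hker g hg, hg]
  have hψeq : ∀ g h, (π g).1 = (π h).1 → ψ g = ψ h := by
    intro g h hgh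
    have h1 : π (g⁻¹ * h) = 1 := by rw [map_mul, map_inv, inv_mul_eq_one]; exact Units.ext hgh
    have := hψ g (g⁻¹ * h)
    rw [mul_inv_cancel_left, hψker _ h1, Matrix.mulVec_zero, add_zero] at this
    exact this.symm
  have hψ1 : ψ 1 = 0 := hψker 1 (map_one π)
  have hψU : ψ gU = 0 := by simpa [hψdef, hMU] using hv₀
  have hψm : ψ gm = 0 := by
    refine hfixU _ ?_
    have h := hψeq (gU * gm) (gm * gU) (by
      rw [map_mul, map_mul, Units.val_mul, Units.val_mul, hgU, hgm]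
      ext i j; fin_cases i <;> fin_cases j <;> simp)
    rw [hψ, hψ, hψU, hMU, hMm, Matrix.mulVec_zero, zero_add, add_zero] at h
    exact h
  have hSS : ψ gS + !![0, 1; 1, 0] *ᵥ ψ gS = 0 := by
    rw [← hMS, ← hψ, hψeq (gS * gS) gm (by
      rw [map_mul, Units.val_mul, hgS, hgm]
      ext i j; fin_cases i <;> fin_cases j <;> simp), hψm]
  have hST : ψ gS + !![0, 1; 1, 0] *ᵥ ψ gT = 0 := by
    rw [← hMS, ← hψ, hψeq (gS * gT) (gm * (gU * gU)) (by
      rw [map_mul, map_mul, map_mul, Units.val_mul, Units.val_mul, Units.val_mul, hgS, hgT, hgU,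
        hgm]
      ext i j; fin_cases i <;> fin_cases j <;> simp), hψ, hψ, hψm, hψU, Matrix.mulVec_zero,
      add_zero, Matrix.mulVec_zero, add_zero]
  have hψT1 : ψ gT 1 = 0 := by
    have := hT' v₀ (φ gT) hφT
    simp only [hψdef, hMT]
    exact this
  obtain ⟨hψS, hψT⟩ := hS _ _ hSS hψT1 hST
  -- `ψ` vanishes on the preimage of `SL₂`
  let K : Subgroup G :=
    { carrier := {g | ψ g = 0}
      one_mem' := hψ1
      mul_mem' := fun {g h} hg hh => by
        change ψ g = 0 at hg; change ψ h = 0 at hh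
        show ψ (g * h) = 0
        rw [hψ, hg, hh, Matrix.mulVec_zero, add_zero]
      inv_mem' := fun {g} hg => by
        change ψ g = 0 at hg
        show ψ g⁻¹ = 0
        have := hψ g⁻¹ g
        rw [inv_mul_cancel, hψ1, hg, Matrix.mulVec_zero, add_zero] at this
        exact this.symm }
  have hK : ∀ g, (π g).1.det = 1 → ψ g = 0 := by
    intro g hg
    obtain ⟨k, hk, hkg⟩ := mem_of_det_eq_one hn (K.map π)
      ⟨gT, hψT, Units.ext (by rw [coe_mkSL, hgT])⟩ ⟨gS, hψS, Units.ext (by rw [coe_mkSL, hgS])⟩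
      (π g) hg
    exact (hψeq g k (by rw [hkg])).trans hk
  refine ⟨v₀, fun g => ?_⟩
  have hinv : ∀ k, (π k).1.det = 1 → M k *ᵥ ψ g = ψ g := by
    intro k hk
    have hk' : (π (g⁻¹ * k * g)).1.det = 1 := by
      rw [map_mul, map_mul, map_inv, Units.val_mul, Units.val_mul, Matrix.det_mul, Matrix.det_mul,
        hk, mul_one, ← Matrix.det_mul, ← Units.val_mul, inv_mul_cancel, Units.val_one,
        Matrix.det_one]
    have h := hψ g (g⁻¹ * k * g)
    rw [← mul_assoc, mul_inv_cancel_left, hψ, hK _ hk', hK k hk, Matrix.mulVec_zero, add_zero,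
      zero_add] at h
    exact h
  have h0 : ψ g = 0 := hfix _
    (by rw [← hMT]; exact hinv gT (by rw [hgT]; exact upper_det 1))
    (by rw [← hMS]; exact hinv gS (by rw [hgS]; exact S_det))
  have h1 : φ g + (M g *ᵥ v₀ - v₀) = 0 := h0
  rw [eq_neg_of_add_eq_zero_left h1]
  funext i
  exact ZMod.neg_eq_self_mod_two _

end Fermat.Agent.TwoAdic
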