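import Mathlib.NumberTheory.ModularForms.JacobiTheta.TwoVariable
import Mathlib.Topology.Algebra.InfiniteSum.Constructions
import Mathlib.Tactic.Positivity
import Mathlib.Analysis.Complex.LocallyUniformLimit

/-!
# Inversion formula for binary theta series with characteristics

For a positive definite real form `f = a x² + b x y + c y²` with `Δ = 4ac - b²` and real
characteristics `v`, `w` we prove

`∑ₙ e(τ f(n + v) + w·n) = i/(τ √Δ) ∑ₘ e(-f*(m - w)/(Δ τ) + (m - w)·v)`,

`f* = c x² - b x y + a y²`, by applying the one-variable functional equation twice.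
-/

set_option autoImplicit false

noncomputable section

namespace Fermat.Agent.TwoAdic

open Complex Real

/-- A positive definite real binary quadratic form `a x² + b x y + c y²`. -/
structure PosBinaryForm where
  /-- coefficient of `x²` -/
  a : ℝ
  /-- coefficient of `x y` -/
  b : ℝ
  /-- coefficient of `y²` -/
  c : ℝ
  a_pos : 0 < a
  disc_neg : b ^ 2 < 4 * a * c

namespace PosBinaryForm

variable (f : PosBinaryForm)

/-- Value of the form. -/
def eval (x y : ℝ) : ℝ := f.a * x ^ 2 + f.b * x * y + f.c * y ^ 2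

/-- `Δ = 4ac - b²`. -/
def delta : ℝ := 4 * f.a * f.c - f.b ^ 2

theorem delta_pos : 0 < f.delta := sub_pos.mpr f.disc_neg

theorem c_pos : 0 < f.c := by
  have h := f.disc_neg
  nlinarith [sq_nonneg f.b, f.a_pos]

/-- The adjugate form `c x² - b x y + a y²`. -/
def dual : PosBinaryForm where
  a := f.c
  b := -f.b
  c := f.a
  a_pos := f.c_pos
  disc_neg := by have := f.disc_neg; nlinarith

theorem dual_eval (x y : ℝ) : f.dual.eval x y = f.c * x ^ 2 - f.b * x * y + f.a * y ^ 2 := by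
  simp [eval, dual, sub_eq_add_neg]

theorem delta_dual : f.dual.delta = f.delta := by simp [delta, dual]; ring

theorem le_eval (x y : ℝ) :
    f.delta / (4 * (f.a + f.c)) * (x ^ 2 + y ^ 2) ≤ f.eval x y := by
  have h : 0 < 4 * (f.a + f.c) := by linarith [f.a_pos, f.c_pos]
  rw [div_mul_eq_mul_div, div_le_iff₀ h, delta, eval]
  nlinarith [sq_nonneg (2 * f.a * x + f.b * y), sq_nonneg (f.b * x + 2 * f.c * y)]

end PosBinaryForm

/-- `e(x) = exp (2πi x)`. -/
def expTwoPiI (x : ℂ) : ℂ := Complex.exp (2 * π * I * x)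

theorem expTwoPiI_add (x y : ℂ) : expTwoPiI (x + y) = expTwoPiI x * expTwoPiI y := by
  rw [expTwoPiI, expTwoPiI, expTwoPiI, mul_add, Complex.exp_add]

theorem expTwoPiI_zero : expTwoPiI 0 = 1 := by simp [expTwoPiI]

theorem expTwoPiI_intCast (n : ℤ) : expTwoPiI n = 1 := by
  rw [expTwoPiI, show 2 * (π : ℂ) * I * n = n * (2 * π * I) by ring, exp_int_mul_two_pi_mul_I]

theorem norm_expTwoPiI (x : ℂ) : ‖expTwoPiI x‖ = Real.exp (-2 * π * x.im) := by
  rw [expTwoPiI, Complex.norm_exp]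
  congr 1
  simp [Complex.mul_re, Complex.mul_im]

/-- One-variable Gaussian sum with characteristics. -/
theorem summable_gauss {s : ℂ} (hs : 0 < s.im) (u w : ℂ) :
    Summable fun n : ℤ => Complex.exp (π * I * s * (n + u) ^ 2 + 2 * π * I * w * n) := by
  have h := ((summable_jacobiTheta₂_term_iff (s * u + w) s).mpr hs).mul_left
    (Complex.exp (π * I * s * u ^ 2))
  refine h.congr fun n => ?_
  rw [jacobiTheta₂_term, ← Complex.exp_add]
  ring_nf

theorem summable_gauss_norm {s : ℂ} (hs : 0 < s.im) (u w : ℂ) :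
    Summable fun n : ℤ => ‖Complex.exp (π * I * s * (n + u) ^ 2 + 2 * π * I * w * n)‖ :=
  (summable_gauss hs u w).norm

/-- Inversion of a one-variable Gaussian sum with characteristics. -/
theorem gauss_inversion {s : ℂ} (hs : s ≠ 0) (u w : ℂ) :
    ∑' n : ℤ, Complex.exp (π * I * s * (n + u) ^ 2 + 2 * π * I * w * n) =
      1 / (-I * s) ^ (1 / 2 : ℂ) *
        ∑' n : ℤ, Complex.exp (-π * I * (n - w) ^ 2 / s + 2 * π * I * (n - w) * u) := by
  have h : ∑' n : ℤ, Complex.exp (π * I * s * (n + u) ^ 2 + 2 * π * I * w * n) =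
      Complex.exp (π * I * s * u ^ 2) * jacobiTheta₂ (s * u + w) s := by
    rw [jacobiTheta₂, ← tsum_mul_left]
    refine tsum_congr fun n => ?_
    rw [jacobiTheta₂_term, ← Complex.exp_add]
    ring_nf
  rw [h, jacobiTheta₂_functional_equation, jacobiTheta₂, ← tsum_mul_left, ← tsum_mul_left,
    ← tsum_mul_left]
  refine tsum_congr fun n => ?_
  rw [jacobiTheta₂_term, mul_left_comm]
  simp only [mul_assoc (1 / (-I * s) ^ (1 / 2 : ℂ))]
  congr 1
  rw [← Complex.exp_add, ← Complex.exp_add]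
  congr 1
  field_simp
  ring

variable (f : PosBinaryForm) (v w : ℝ × ℝ)

/-- The `n`-th term of a binary theta series with characteristics. -/
def binaryThetaTerm (τ : ℂ) (n : ℤ × ℤ) : ℂ :=
  expTwoPiI (τ * (f.eval (n.1 + v.1) (n.2 + v.2) : ℝ) + ((w.1 * n.1 + w.2 * n.2 : ℝ) : ℂ))

/-- The binary theta series `∑ₙ e(τ f(n + v) + w·n)`. -/
def binaryTheta (τ : ℂ) : ℂ := ∑' n : ℤ × ℤ, binaryThetaTerm f v w τ n

theorem norm_binaryThetaTerm (τ : ℂ) (n : ℤ × ℤ) :
    ‖binaryThetaTerm f v w τ n‖ = Real.exp (-2 * π * (τ.im * f.eval (n.1 + v.1) (n.2 + v.2))) := by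
  rw [binaryThetaTerm, norm_expTwoPiI]
  congr 1
  simp [Complex.mul_im]

theorem summable_exp_neg_sq {t : ℝ} (ht : 0 < t) (u : ℝ) :
    Summable fun n : ℤ => Real.exp (-2 * π * (t * ((n : ℝ) + u) ^ 2)) := by
  have h := summable_gauss_norm (s := ((2 * t : ℝ) : ℂ) * I) (by simpa using ht) (u : ℂ) 0
  refine h.congr fun n => ?_
  rw [Complex.norm_exp]
  congr 1
  rw [show (π : ℂ) * I * (((2 * t : ℝ) : ℂ) * I) * ((n : ℂ) + (u : ℂ)) ^ 2 + 2 * π * I * 0 * n =
    ((-2 * π * (t * ((n : ℝ) + u) ^ 2) : ℝ) : ℂ) by push_cast; ring_nf; rw [I_sq]; ring,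
    Complex.ofReal_re]

theorem norm_binaryThetaTerm_le {τ : ℂ} (hτ : 0 < τ.im) (n : ℤ × ℤ) :
    ‖binaryThetaTerm f v w τ n‖ ≤
      Real.exp (-2 * π * (τ.im * (f.delta / (4 * (f.a + f.c))) * ((n.1 : ℝ) + v.1) ^ 2)) *
        Real.exp (-2 * π * (τ.im * (f.delta / (4 * (f.a + f.c))) * ((n.2 : ℝ) + v.2) ^ 2)) := by
  rw [norm_binaryThetaTerm, ← Real.exp_add, Real.exp_le_exp, ← mul_add, ← mul_add, mul_assoc τ.im]
  refine mul_le_mul_of_nonpos_left ?_ (by nlinarith [Real.pi_pos])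
  exact mul_le_mul_of_nonneg_left (f.le_eval _ _) hτ.le

theorem summable_binaryTheta_norm {τ : ℂ} (hτ : 0 < τ.im) :
    Summable fun n : ℤ × ℤ => ‖binaryThetaTerm f v w τ n‖ := by
  have ht : 0 < τ.im * (f.delta / (4 * (f.a + f.c))) :=
    mul_pos hτ (div_pos f.delta_pos (by linarith [f.a_pos, f.c_pos]))
  exact Summable.of_nonneg_of_le (fun n => norm_nonneg _) (norm_binaryThetaTerm_le f v w hτ)
    ((summable_exp_neg_sq ht v.1).mul_of_nonneg (summable_exp_neg_sq ht v.2)
      (fun _ => (Real.exp_pos _).le) (fun _ => (Real.exp_pos _).le))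

theorem summable_binaryTheta {τ : ℂ} (hτ : 0 < τ.im) :
    Summable (binaryThetaTerm f v w τ) :=
  (summable_binaryTheta_norm f v w hτ).of_norm

theorem hasSum_binaryTheta {τ : ℂ} (hτ : 0 < τ.im) :
    HasSum (binaryThetaTerm f v w τ) (binaryTheta f v w τ) :=
  (summable_binaryTheta f v w hτ).hasSum

/-- The terms of the theta series are uniformly dominated on `im τ ≥ y₀`. -/
theorem norm_binaryThetaTerm_le_of_le_im {y₀ : ℝ} {τ : ℂ} (hτ : y₀ ≤ τ.im) (n : ℤ × ℤ) :
    ‖binaryThetaTerm f v w τ n‖ ≤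
      Real.exp (-2 * π * (y₀ * f.eval (n.1 + v.1) (n.2 + v.2))) := by
  rw [norm_binaryThetaTerm, Real.exp_le_exp]
  refine mul_le_mul_of_nonpos_left (mul_le_mul_of_nonneg_right hτ ?_)
    (by nlinarith [Real.pi_pos])
  exact le_trans (mul_nonneg (div_nonneg f.delta_pos.le (by linarith [f.a_pos, f.c_pos]))
    (by positivity)) (f.le_eval _ _)

theorem summable_binaryTheta_bound {y₀ : ℝ} (hy : 0 < y₀) :
    Summable fun n : ℤ × ℤ =>
      Real.exp (-2 * π * (y₀ * f.eval (n.1 + v.1) (n.2 + v.2))) := by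
  refine (summable_binaryTheta_norm f v (0, 0) (τ := (y₀ : ℂ) * I) (by simpa using hy)).congr
    fun n => ?_
  rw [norm_binaryThetaTerm]
  simp

/-- A theta series is bounded on every half plane `im τ ≥ y₀ > 0`. -/
theorem exists_bound_binaryTheta {y₀ : ℝ} (hy : 0 < y₀) :
    ∃ B : ℝ, ∀ τ : ℂ, y₀ ≤ τ.im → ‖binaryTheta f v w τ‖ ≤ B :=
  ⟨_, fun _ hτ => tsum_of_norm_bounded (summable_binaryTheta_bound f v hy).hasSum fun n =>
    norm_binaryThetaTerm_le_of_le_im f v w hτ n⟩

theorem differentiableOn_binaryTheta :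
    DifferentiableOn ℂ (binaryTheta f v w) {τ : ℂ | 0 < τ.im} := by
  intro τ hτ
  have hy : 0 < τ.im / 2 := by
    have : (0 : ℝ) < τ.im := hτ
    linarith
  have hU : IsOpen {z : ℂ | τ.im / 2 < z.im} := isOpen_lt continuous_const Complex.continuous_im
  have h : DifferentiableOn ℂ (binaryTheta f v w) {z : ℂ | τ.im / 2 < z.im} :=
    differentiableOn_tsum_of_summable_norm (summable_binaryTheta_bound f v hy)
      (fun n => by unfold binaryThetaTerm expTwoPiI; fun_prop) hU
      fun n z hz => norm_binaryThetaTerm_le_of_le_im f v w (le_of_lt hz) n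
  exact (h.differentiableAt (hU.mem_nhds (by
    have : (0 : ℝ) < τ.im := hτ
    show τ.im / 2 < τ.im
    linarith))).differentiableWithinAt

/-- The exponent after the first inversion. -/
def midExponent (τ : ℂ) (n m : ℤ) : ℂ :=
  -π * I * ((n : ℂ) - w.1) ^ 2 / (2 * f.a * τ) +
    2 * π * I * ((n : ℂ) - w.1) * (v.1 + f.b * ((m : ℂ) + v.2) / (2 * f.a)) +
    (π * I * (f.delta * τ / (2 * f.a)) * ((m : ℂ) + v.2) ^ 2 + 2 * π * I * w.2 * m)

theorem sqrt_mul_sqrt {r z : ℝ} {u : ℂ} (hr : 0 < r) (hz : 0 < z) (hu : u ≠ 0) :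
    ((r : ℂ) * u) ^ (1 / 2 : ℂ) * ((z : ℂ) * u) ^ (1 / 2 : ℂ) = (Real.sqrt (r * z) : ℂ) * u := by
  rw [Complex.cpow_def_of_ne_zero (mul_ne_zero (by exact_mod_cast hr.ne') hu),
    Complex.cpow_def_of_ne_zero (mul_ne_zero (by exact_mod_cast hz.ne') hu),
    Complex.log_ofReal_mul hr hu, Complex.log_ofReal_mul hz hu, ← Complex.exp_add,
    Real.sqrt_eq_rpow, Real.rpow_def_of_pos (mul_pos hr hz), Real.log_mul hr.ne' hz.ne',
    Complex.ofReal_exp]
  conv_rhs => rw [← Complex.exp_log hu, ← Complex.exp_add]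
  congr 1
  push_cast
  ring

/-- Inversion formula for binary theta series with characteristics. -/
theorem binaryTheta_inversion {τ : ℂ} (hτ : 0 < τ.im) :
    binaryTheta f v w τ = I / (τ * Real.sqrt f.delta) *
      ∑' m : ℤ × ℤ, expTwoPiI
        (-(f.dual.eval (m.1 - w.1) (m.2 - w.2) : ℝ) / (f.delta * τ) +
          (((m.1 - w.1) * v.1 + (m.2 - w.2) * v.2 : ℝ) : ℂ)) := by
  have hτ0 : τ ≠ 0 := fun h => by simp [h] at hτ
  have ha : (f.a : ℂ) ≠ 0 := by exact_mod_cast f.a_pos.ne'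
  have hΔ : (f.delta : ℂ) ≠ 0 := by exact_mod_cast f.delta_pos.ne'
  have hs₁ : 0 < (2 * (f.a : ℂ) * τ).im := by
    simp [Complex.mul_im, f.a_pos, hτ]
  have hs₂ : 0 < ((f.delta : ℂ) * τ / (2 * f.a)).im := by
    rw [show (f.delta : ℂ) * τ / (2 * f.a) = ((f.delta / (2 * f.a) : ℝ) : ℂ) * τ by
      push_cast; ring, Complex.im_ofReal_mul]
    exact mul_pos (div_pos f.delta_pos (by linarith [f.a_pos])) hτ
  have hs₁0 : 2 * (f.a : ℂ) * τ ≠ 0 := fun h => by simp [h] at hs₁
  have hs₂0 : (f.delta : ℂ) * τ / (2 * f.a) ≠ 0 := fun h => by simp [h] at hs₂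
  set k₁ : ℂ := 1 / (-I * (2 * f.a * τ)) ^ (1 / 2 : ℂ) with hk₁
  set k₂ : ℂ := 1 / (-I * ((f.delta : ℂ) * τ / (2 * f.a))) ^ (1 / 2 : ℂ) with hk₂
  -- the first inversion, in the variable `n.1`
  have hfirst : ∀ m : ℤ, ∑' n : ℤ, binaryThetaTerm f v w τ (n, m) =
      k₁ * ∑' n : ℤ, Complex.exp (midExponent f v w τ n m) := by
    intro m
    have hL : ∀ n : ℤ, binaryThetaTerm f v w τ (n, m) =
        Complex.exp (π * I * (f.delta * τ / (2 * f.a)) * ((m : ℂ) + v.2) ^ 2 +
            2 * π * I * w.2 * m) *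
          Complex.exp (π * I * (2 * f.a * τ) *
              ((n : ℂ) + (v.1 + f.b * ((m : ℂ) + v.2) / (2 * f.a))) ^ 2 +
            2 * π * I * w.1 * n) := fun n => by
      rw [binaryThetaTerm, expTwoPiI, ← Complex.exp_add]
      congr 1
      simp only [PosBinaryForm.eval, PosBinaryForm.delta]
      push_cast
      field_simp
      ring
    rw [tsum_congr hL, tsum_mul_left, gauss_inversion hs₁0, ← hk₁, mul_left_comm, ← tsum_mul_left]
    congr 1
    refine tsum_congr fun n => ?_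
    rw [← Complex.exp_add, midExponent]
    ring_nf
  -- the double series is absolutely convergent
  have hmid : Summable fun p : ℤ × ℤ => Complex.exp (midExponent f v w τ p.1 p.2) := by
    have hneg : 0 < (-1 / (2 * (f.a : ℂ) * τ)).im := by
      rw [neg_div, Complex.neg_im, one_div, Complex.inv_im, neg_div, neg_neg]
      exact div_pos hs₁ (Complex.normSq_pos.mpr hs₁0)
    have h := Summable.mul_of_nonneg
      (summable_gauss_norm hneg (-(w.1 : ℂ)) 0) (summable_gauss_norm hs₂ (v.2 : ℂ) (w.2 : ℂ))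
      (fun _ => norm_nonneg _) (fun _ => norm_nonneg _)
    refine Summable.of_norm (h.congr fun p => ?_)
    rw [← norm_mul, ← Complex.exp_add, Complex.norm_exp, Complex.norm_exp]
    congr 1
    have key : midExponent f v w τ p.1 p.2 =
        (π * I * (-1 / (2 * f.a * τ)) * ((p.1 : ℂ) + -(w.1 : ℂ)) ^ 2 + 2 * π * I * 0 * p.1 +
          (π * I * ((f.delta : ℂ) * τ / (2 * f.a)) * ((p.2 : ℂ) + v.2) ^ 2 +
            2 * π * I * w.2 * p.2)) +
        ((2 * π * (((p.1 : ℝ) - w.1) * (v.1 + f.b * ((p.2 : ℝ) + v.2) / (2 * f.a))) : ℝ) : ℂ) * I :=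
      by simp only [midExponent]; push_cast; field_simp; ring
    rw [key, Complex.add_re (_ + _) (_ * I), Complex.re_ofReal_mul, Complex.I_re, mul_zero]
    ring_nf
  -- the second inversion, in the variable `n.2`
  have hsecond : ∀ n : ℤ, ∑' m : ℤ, Complex.exp (midExponent f v w τ n m) =
      k₂ * ∑' m : ℤ, expTwoPiI
        (-(f.dual.eval ((n : ℝ) - w.1) ((m : ℝ) - w.2) : ℝ) / (f.delta * τ) +
          ((((n : ℝ) - w.1) * v.1 + ((m : ℝ) - w.2) * v.2 : ℝ) : ℂ)) := by
    intro n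
    have hL : ∀ m : ℤ, Complex.exp (midExponent f v w τ n m) =
        Complex.exp (-π * I * ((n : ℂ) - w.1) ^ 2 / (2 * f.a * τ) +
            2 * π * I * ((n : ℂ) - w.1) * (v.1 + f.b * v.2 / (2 * f.a))) *
          Complex.exp (π * I * (f.delta * τ / (2 * f.a)) * ((m : ℂ) + v.2) ^ 2 +
            2 * π * I * (w.2 + ((n : ℂ) - w.1) * f.b / (2 * f.a)) * m) := fun m => by
      rw [← Complex.exp_add, midExponent]
      congr 1
      field_simp
      ring
    rw [tsum_congr hL, tsum_mul_left, gauss_inversion hs₂0, ← hk₂, mul_left_comm, ← tsum_mul_left]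
    congr 1
    refine tsum_congr fun m => ?_
    rw [← Complex.exp_add, expTwoPiI, PosBinaryForm.dual_eval]
    congr 1
    push_cast
    field_simp
    rw [show (f.delta : ℂ) = 4 * f.a * f.c - f.b ^ 2 by simp [PosBinaryForm.delta]]
    ring
  -- the constant
  have hk : k₁ * k₂ = I / (τ * Real.sqrt f.delta) := by
    have h := sqrt_mul_sqrt (r := 2 * f.a) (z := f.delta / (2 * f.a)) (u := -I * τ)
      (by linarith [f.a_pos]) (div_pos f.delta_pos (by linarith [f.a_pos]))
      (mul_ne_zero (neg_ne_zero.mpr I_ne_zero) hτ0)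
    rw [hk₁, hk₂, div_mul_div_comm, one_mul,
      show -I * (2 * (f.a : ℂ) * τ) = ((2 * f.a : ℝ) : ℂ) * (-I * τ) by push_cast; ring,
      show -I * ((f.delta : ℂ) * τ / (2 * f.a)) = ((f.delta / (2 * f.a) : ℝ) : ℂ) * (-I * τ) by
        push_cast; ring,
      h, show 2 * f.a * (f.delta / (2 * f.a)) = f.delta by
        field_simp [f.a_pos.ne']]
    have hsq : (Real.sqrt f.delta : ℂ) ≠ 0 := by
      exact_mod_cast (Real.sqrt_pos.mpr f.delta_pos).ne'
    field_simp
    ring_nf
    rw [I_sq]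
  have hbase := summable_binaryTheta f v w hτ
  calc binaryTheta f v w τ
      = ∑' m : ℤ, ∑' n : ℤ, binaryThetaTerm f v w τ (n, m) := by
        rw [binaryTheta, hbase.tsum_prod' hbase.prod_factor]
        exact (Summable.tsum_comm (f := fun n m => binaryThetaTerm f v w τ (n, m)) hbase).symm
    _ = k₁ * ∑' m : ℤ, ∑' n : ℤ, Complex.exp (midExponent f v w τ n m) := by
        rw [tsum_congr hfirst, tsum_mul_left]
    _ = k₁ * ∑' n : ℤ, ∑' m : ℤ, Complex.exp (midExponent f v w τ n m) := by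
        rw [Summable.tsum_comm (f := fun n m => Complex.exp (midExponent f v w τ n m)) hmid]
    _ = k₁ * k₂ * ∑' n : ℤ, ∑' m : ℤ, expTwoPiI
        (-(f.dual.eval ((n : ℝ) - w.1) ((m : ℝ) - w.2) : ℝ) / (f.delta * τ) +
          ((((n : ℝ) - w.1) * v.1 + ((m : ℝ) - w.2) * v.2 : ℝ) : ℂ)) := by
        rw [tsum_congr hsecond, tsum_mul_left, mul_assoc]
    _ = _ := by
        rw [hk]
        congr 1
        have hdual : Summable fun m : ℤ × ℤ => expTwoPiI
            (-(f.dual.eval (m.1 - w.1) (m.2 - w.2) : ℝ) / (f.delta * τ) +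
              (((m.1 - w.1) * v.1 + (m.2 - w.2) * v.2 : ℝ) : ℂ)) := by
          have him : 0 < (-1 / ((f.delta : ℂ) * τ)).im := by
            rw [neg_div, Complex.neg_im, one_div, Complex.inv_im, neg_div, neg_neg]
            refine div_pos ?_ (Complex.normSq_pos.mpr (mul_ne_zero hΔ hτ0))
            rw [Complex.im_ofReal_mul]
            exact mul_pos f.delta_pos hτ
          have h := (summable_binaryTheta f.dual (-w.1, -w.2) v him).mul_left
            (expTwoPiI (((-w.1 * v.1 - w.2 * v.2 : ℝ)) : ℂ))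
          refine h.congr fun m => ?_
          rw [binaryThetaTerm, ← expTwoPiI_add]
          simp only [← sub_eq_add_neg]
          congr 1
          push_cast
          ring
        rw [hdual.tsum_prod' hdual.prod_factor]

end Fermat.Agent.TwoAdic
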